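import Fermat.Agent.GalCoh.HasseH2
import Fermat.Agent.GalCoh.CycloGlobal

/-!
# The cyclotomic levels

The subgroups fixing the roots of unity of a given order are normal levels with commutative
quotient; those of order a multiple of four contain no conjugate of complex conjugation.
-/

set_option autoImplicit false
set_option linter.unusedSectionVars false

noncomputable section

namespace Fermat.Agent.SolvableOverCyclotomic

open FA.GalCoh

local notation "Qb" => AlgebraicClosure ℚ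

/-- The elements fixing the `m`-th roots of unity. -/
def fixMu (m : ℕ) : Subgroup GQ where
  carrier := {g | ∀ μ : Qb, μ ^ m = 1 → g μ = μ}
  one_mem' _ _ := rfl
  mul_mem' {a b} ha hb μ hμ := by rw [AlgEquiv.mul_apply, hb μ hμ, ha μ hμ]
  inv_mem' {a} ha μ hμ := by
    conv_lhs => rw [← ha μ hμ]
    exact a.symm_apply_apply μ

theorem mem_fixMu {m : ℕ} {g : GQ} : g ∈ fixMu m ↔ ∀ μ : Qb, μ ^ m = 1 → g μ = μ := Iff.rfl

instance normal_fixMu (m : ℕ) : (fixMu m).Normal := ⟨fun h hh g μ hμ => by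
  rw [AlgEquiv.mul_apply, AlgEquiv.mul_apply, hh _ (by rw [← map_pow, hμ, map_one])]
  exact g.apply_symm_apply μ⟩

theorem fixMu_le_of_dvd {m n : ℕ} (h : m ∣ n) : fixMu n ≤ fixMu m := fun g hg μ hμ => by
  obtain ⟨k, rfl⟩ := h
  exact hg μ (by rw [pow_mul, hμ, one_pow])

theorem fixMu_mem {m : ℕ} (hm : 0 < m) : fixMu m ∈ LQ.carrier := by
  have hfin : ({μ : Qb | μ ^ m = 1}).Finite :=
    Set.Finite.subset (Polynomial.nthRoots m (1 : Qb)).toFinset.finite_toSet fun μ hμ => by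
      simp only [Finset.mem_coe, Multiset.mem_toFinset, Polynomial.mem_nthRoots hm]
      exact hμ
  have := hfin.to_subtype
  have : FiniteDimensional ℚ (IntermediateField.adjoin ℚ {μ : Qb | μ ^ m = 1}) :=
    IntermediateField.finiteDimensional_adjoin fun x _ => Algebra.IsIntegral.isIntegral x
  exact ⟨_, this, fun g hg μ hμ => (IntermediateField.mem_fixingSubgroup_iff _ _).1 hg μ
    (IntermediateField.subset_adjoin ℚ _ hμ)⟩

theorem exists_pow_of_root {m : ℕ} (hm : 0 < m) (a : GQ) :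
    ∃ i : ℕ, ∀ μ : Qb, μ ^ m = 1 → a μ = μ ^ i := by
  have : NeZero m := ⟨hm.ne'⟩
  have : NeZero (m : Qb) := ⟨Nat.cast_ne_zero.2 hm.ne'⟩
  obtain ⟨ζ, hζ⟩ := HasEnoughRootsOfUnity.exists_primitiveRoot Qb m
  obtain ⟨i, -, hi⟩ := hζ.eq_pow_of_pow_eq_one (ξ := a ζ) (by
    rw [← map_pow, hζ.pow_eq_one, map_one])
  refine ⟨i, fun μ hμ => ?_⟩
  obtain ⟨j, -, rfl⟩ := hζ.eq_pow_of_pow_eq_one hμ
  rw [map_pow, ← hi, ← pow_mul, ← pow_mul, mul_comm]

theorem apply_comm {m : ℕ} (hm : 0 < m) (a b : GQ) {μ : Qb} (hμ : μ ^ m = 1) :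
    a (b μ) = b (a μ) := by
  obtain ⟨i, hi⟩ := exists_pow_of_root hm a
  rw [hi _ (by rw [← map_pow, hμ, map_one]), ← map_pow, ← hi μ hμ]

/-- The quotient is commutative. -/
theorem commutator_mem_fixMu {m : ℕ} (hm : 0 < m) (a b : GQ) :
    a * b * a⁻¹ * b⁻¹ ∈ fixMu m := fun μ hμ => by
  simp only [AlgEquiv.mul_apply]
  rw [apply_comm hm a b (μ := a⁻¹ (b⁻¹ μ)) (by rw [← map_pow, ← map_pow, hμ, map_one, map_one]),
    show a (a⁻¹ (b⁻¹ μ)) = b⁻¹ μ from a.apply_symm_apply _]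
  exact b.apply_symm_apply μ

theorem tc_fixMu {m : ℕ} (h : 4 ∣ m) : TC (fixMu m) := fun g hg => by
  obtain ⟨I, hI⟩ := IsAlgClosed.exists_pow_nat_eq (-1 : Qb) two_pos
  have hI4 : I ^ 4 = 1 := by rw [show (4 : ℕ) = 2 * 2 from rfl, pow_mul, hI, neg_one_sq]
  have h1 : (g * complexConjugation * g⁻¹ : GQ) I = I := fixMu_le_of_dvd h hg I hI4
  rw [AlgEquiv.mul_apply, AlgEquiv.mul_apply,
    apply_comm (by norm_num : 0 < 4) g complexConjugation (μ := g⁻¹ I)
      (by rw [← map_pow, hI4, map_one]),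
    show g (g⁻¹ I) = I from g.apply_symm_apply I] at h1
  have h2 := congrArg complexEmbedding h1
  rw [complexEmbedding_complexConjugation, Complex.conj_eq_iff_im] at h2
  have h3 := congrArg Complex.re (congrArg complexEmbedding hI)
  rw [map_pow, map_neg, map_one, pow_two, Complex.mul_re, h2, mul_zero, sub_zero, Complex.neg_re,
    Complex.one_re] at h3
  nlinarith [mul_self_nonneg (complexEmbedding I).re]

theorem fixMu_ne_top {m : ℕ} (h : 4 ∣ m) : ∃ t, t ∉ fixMu m :=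
  ⟨complexConjugation, fun hc => tc_fixMu h 1 (by simpa using hc)⟩

theorem cycloChar_eq_one {p m : ℕ} [hp : Fact p.Prime] (h : p ∣ m) {g : GQ} (hg : g ∈ fixMu m) :
    ExtCitation.cycloChar p g = 1 := by
  have h1 : g (zetaQ p) = zetaQ p := fixMu_le_of_dvd h hg _ zetaQ_spec.pow_eq_one
  rw [apply_zetaQ] at h1
  have : NeZero p := ⟨hp.out.ne_zero⟩
  have h2 := (zetaQ_spec (p := p)).pow_inj (ZMod.val_lt _) hp.out.one_lt (h1.trans (pow_one _).symm)
  refine Units.ext ?_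
  rw [← ZMod.natCast_zmod_val (ExtCitation.cycloChar p g : ZMod p), h2, Nat.cast_one, Units.val_one]

theorem lev_le_of_dvd (H : Subgroup GQ) {m n : ℕ} (h : m ∣ n) :
    H ⊓ fixMu n ≤ H ⊓ fixMu m :=
  inf_le_inf_left H (fixMu_le_of_dvd h)

variable {G : Type} [Group G] {H : Subgroup GQ} {n : ℕ}

/-- A homomorphism of a cyclotomic level over `H`, surjective on all smaller ones. -/
structure IsCycSurj (f : ↥(H ⊓ fixMu n) →* G) : Prop where
  lc : LC₁ (LQ.sub (H ⊓ fixMu n)) f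
  surj : ∀ m, 0 < m → ∀ g, ∃ s : ↥(H ⊓ fixMu n), (s : GQ) ∈ fixMu m ∧ f s = g

theorem IsCycSurj.comp_inclusion {f : ↥(H ⊓ fixMu n) →* G} (hf : IsCycSurj f) {n' : ℕ}
    (hn' : 0 < n') (h : n ∣ n') :
    IsCycSurj (f.comp (Subgroup.inclusion (lev_le_of_dvd H h))) where
  lc := hf.lc.precomp (compat_inclusion (lev_le_of_dvd H h))
  surj m hm g := by
    obtain ⟨s, hs, rfl⟩ := hf.surj (n' * m) (Nat.mul_pos hn' hm) g
    exact ⟨⟨s, s.2.1, fixMu_le_of_dvd (dvd_mul_right n' m) hs⟩,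
      fixMu_le_of_dvd (dvd_mul_left m n') hs, rfl⟩

end Fermat.Agent.SolvableOverCyclotomic
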