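import Fermat.Agent.SolvableOverCyclotomic.Levels
import Fermat.Agent.SemidirectGalois.Embedding

/-!
# Split embedding problems over cyclotomic fields

A split embedding problem with commutative kernel over a cyclotomic level has a solution which
stays surjective on all smaller levels: it is the image of a regular split problem over `ℚ`, and
commutators with an automorphism outside the level lie in every level and fill the kernel.
-/

set_option autoImplicit false
set_option linter.unusedSectionVars false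

noncomputable section

namespace Fermat.Agent.SolvableOverCyclotomic

open FA.GalCoh

/-- The action of a group on the functions with values in a group by translation. -/
def shiftAut (Γ : Type) [Group Γ] (A : Type) [Group A] : Γ →* MulAut (Γ → A) where
  toFun g :=
    { toFun := fun F x => F (g⁻¹ * x)
      invFun := fun F x => F (g * x)
      left_inv := fun F => funext fun x => by simp
      right_inv := fun F => funext fun x => by simp
      map_mul' := fun _ _ => rfl }
  map_one' := MulEquiv.ext fun F => funext fun x => by simp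
  map_mul' g h := MulEquiv.ext fun F => funext fun x => by simp [mul_assoc]

theorem shiftAut_apply {Γ A : Type} [Group Γ] [Group A] (g : Γ) (F : Γ → A) (x : Γ) :
    shiftAut Γ A g F x = F (g⁻¹ * x) := rfl

set_option maxHeartbeats 800000 in
-- nested subgroups of the Galois group are slow to unify
/-- **Split embedding problems with commutative kernel.** -/
theorem exists_split_lift {G Gb : Type} [Group G] [Finite G] [Group Gb] (π : G →* Gb)
    (hcomm : ∀ a ∈ π.ker, ∀ b ∈ π.ker, a * b = b * a) (σ : Gb →* G) (hσ : ∀ x, π (σ x) = x)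
    {H : Subgroup GQ} (hH : H ∈ LQ.carrier) {n : ℕ} (hn : 4 ∣ n) (hn0 : 0 < n)
    (f : ↥(H ⊓ fixMu n) →* Gb) (hf : IsCycSurj f) :
    ∃ ψ : ↥(H ⊓ fixMu n) →* G, IsCycSurj ψ ∧ ∀ h, π (ψ h) = f h := by
  classical
  let L := H ⊓ fixMu n
  obtain ⟨_, ⟨N₀, hN₀, rfl⟩, hs⟩ := hf.lc
  obtain ⟨N, hN, hle, hNn⟩ := LQ.exists_normal (LQ.inf_mem hN₀ (LQ.inf_mem hH (fixMu_mem hn0)))
  have hNf : ∀ h h' : L, ((h : GQ)⁻¹ * h') ∈ N → f h = f h' := fun h h' hh => by
    have h1 := hs h (h⁻¹ * h') (Subgroup.mem_subgroupOf.2 (hle hh).1)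
    rw [mul_inv_cancel_left] at h1
    exact h1.symm
  have := LQ.finiteIndex hN
  let Γ := GQ ⧸ N
  let _ : Fintype Γ := Fintype.ofFinite _
  let ρ : GQ →* Γ := QuotientGroup.mk' N
  let _ : CommGroup π.ker :=
    { (inferInstance : Group π.ker) with
      mul_comm := fun a b => Subtype.ext (hcomm _ a.2 _ b.2) }
  have hρ : IsOpen (ρ.ker : Set GQ) := by
    rw [QuotientGroup.ker_mk']
    exact mem_LQ_iff_isOpen.1 hN
  obtain ⟨Ψ, hΨs, hΨo, hΨr⟩ := SemidirectGalois.exists_embedding (shiftAut Γ π.ker) ρ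
    (QuotientGroup.mk'_surjective N) hρ
  let T : Subgroup Γ := L.map ρ
  choose rep hrep using fun x : T => (Subgroup.mem_map.1 x.2)
  let r : T → L := fun x => ⟨rep x, (hrep x).1⟩
  have hr : ∀ (x : T) (h : L), ρ (h : GQ) = x → f (r x) = f h := fun x h hh =>
    hNf _ _ (QuotientGroup.eq.1 ((hrep x).2.trans hh.symm))
  let conj : G →* MulAut π.ker := MulAut.conjNormal
  let Θ : (Γ → π.ker) → π.ker := fun F => ∏ x : T, conj (σ (f (r x))) (F x)
  have hΘmul : ∀ F F', Θ (F * F') = Θ F * Θ F' := fun F F' => by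
    simp only [Θ, Pi.mul_apply, map_mul, Finset.prod_mul_distrib]
  have hΘact : ∀ (h : L) (F : Γ → π.ker),
      Θ (shiftAut Γ π.ker (ρ h) F) = conj (σ (f h)) (Θ F) := fun h F => by
    have hmem : ρ h ∈ T := ⟨h, h.2, rfl⟩
    simp only [Θ, map_prod]
    refine (Equiv.prod_comp (Equiv.mulLeft (⟨ρ h, hmem⟩ : T)) _).symm.trans
      (Finset.prod_congr rfl fun x _ => ?_)
    have h1 : f (r (⟨ρ h, hmem⟩ * x)) = f h * f (r x) := by
      rw [← map_mul]
      refine hr _ _ ?_
      rw [Subgroup.coe_mul, Subgroup.coe_mul, map_mul]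
      exact congrArg (ρ (h : GQ) * ·) (hrep x).2
    rw [Equiv.coe_mulLeft, shiftAut_apply, h1, map_mul, map_mul, MulAut.mul_apply,
      Subgroup.coe_mul, inv_mul_cancel_left]
  let ψ : L →* G := MonoidHom.mk' (fun h => (Θ (Ψ (h : GQ)).left : G) * σ (f h))
    fun h h' => by
      have h1 : (Ψ ((h * h' : L) : GQ)).left
          = (Ψ (h : GQ)).left * shiftAut Γ π.ker (ρ h) (Ψ (h' : GQ)).left := by
        rw [Subgroup.coe_mul, map_mul, SemidirectProduct.mul_left, hΨr]
      rw [h1, hΘmul, hΘact, Subgroup.coe_mul, MulAut.conjNormal_apply, map_mul, map_mul]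
      group
  have hψ : ∀ h, π (ψ h) = f h := fun h => by
    show π ((Θ _ : G) * σ (f h)) = f h
    rw [map_mul, MonoidHom.mem_ker.1 (Θ _).2, one_mul, hσ]
  obtain ⟨t, ht'⟩ := fixMu_ne_top hn
  have ht : t ∉ L := fun h => ht' h.2
  have htT : ρ t ∉ T := fun hc => by
    obtain ⟨h, hh, he⟩ := hc
    have h1 : t = h * (h⁻¹ * t) := (mul_inv_cancel_left h t).symm
    exact ht (h1 ▸ mul_mem hh (hle (QuotientGroup.eq.1 he)).2)
  -- the kernel lies in the image of every level
  have hkey : ∀ m, 0 < m → ∀ a : π.ker, ∃ s : L, (s : GQ) ∈ fixMu m ∧ ψ s = a :=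
    fun m hm a => by
    let F : Γ → π.ker := Pi.mulSingle 1 a⁻¹
    obtain ⟨k, hk⟩ := hΨs ⟨F, 1⟩
    have hkN : k ∈ N := (QuotientGroup.eq_one_iff k).1 (by
      rw [← QuotientGroup.mk'_apply]
      show ρ k = 1
      rw [← hΨr, hk])
    have hsN : t * k * t⁻¹ * k⁻¹ ∈ N := mul_mem (hNn.conj_mem k hkN t) (inv_mem hkN)
    have hsm := commutator_mem_fixMu (Nat.mul_pos hn0 hm) t k
    let s : L := ⟨_, (hle hsN).2⟩
    refine ⟨s, fixMu_le_of_dvd (dvd_mul_left m n) hsm, ?_⟩
    have hfs : f s = 1 := by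
      rw [← map_one f]
      refine (hNf 1 s ?_).symm
      rw [Subgroup.coe_one, inv_one, one_mul]
      exact hsN
    have hleft : (Ψ (t * k * t⁻¹ * k⁻¹)).left = shiftAut Γ π.ker (ρ t) F * F⁻¹ := by
      rw [← hΨr t]
      simp only [map_mul, map_inv, hk, SemidirectProduct.mul_left, SemidirectProduct.inv_left,
        SemidirectProduct.mul_right, SemidirectProduct.inv_right, mul_one, inv_one,
        mul_inv_cancel, map_one, MulAut.one_apply, MulAut.apply_inv_self]
      rw [mul_comm (Ψ t).left, mul_inv_cancel_right]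
    show (Θ (Ψ (s : GQ)).left : G) * σ (f s) = a
    rw [hfs, map_one, mul_one, show (s : GQ) = t * k * t⁻¹ * k⁻¹ from rfl, hleft]
    refine congrArg Subtype.val ?_
    show ∏ x : T, conj (σ (f (r x))) ((shiftAut Γ π.ker (ρ t) F * F⁻¹) (x : Γ)) = a
    rw [Finset.prod_eq_single (1 : T)]
    · rw [hr 1 1 (map_one ρ), map_one, map_one, map_one, MulAut.one_apply, Pi.mul_apply,
        Pi.inv_apply, shiftAut_apply, Subgroup.coe_one, mul_one]
      simp only [F, Pi.mulSingle_eq_same]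
      rw [Pi.mulSingle_eq_of_ne (fun h => htT (by rw [inv_eq_one.1 h]; exact one_mem T)),
        one_mul, inv_inv]
    · intro x _ hx
      have h1 : (x : Γ) ≠ 1 := fun h => hx (Subtype.ext h)
      have h2 : (ρ t)⁻¹ * (x : Γ) ≠ 1 := fun h => htT (by rw [inv_mul_eq_one.1 h]; exact x.2)
      rw [Pi.mul_apply, Pi.inv_apply, shiftAut_apply]
      simp only [F, Pi.mulSingle_eq_of_ne h1, Pi.mulSingle_eq_of_ne h2, inv_one, mul_one, map_one]
    · exact fun h => absurd (Finset.mem_univ _) h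
  refine ⟨ψ, ⟨?_, fun m hm g => ?_⟩, hψ⟩
  · refine ⟨_, ⟨Ψ.ker ⊓ N, LQ.inf_mem (mem_LQ_iff_isOpen.2 hΨo) hN, rfl⟩, fun h s hs' => ?_⟩
    obtain ⟨hs1, hs2⟩ : (s : GQ) ∈ Ψ.ker ⊓ N := hs'
    have h1 : f (h * s) = f h := hs h s (Subgroup.mem_subgroupOf.2 (hle hs2).1)
    show (Θ (Ψ ((h * s : L) : GQ)).left : G) * σ (f (h * s)) = _
    rw [h1, Subgroup.coe_mul, map_mul, MonoidHom.mem_ker.1 hs1, mul_one]
    rfl
  · obtain ⟨s₀, hs₀, he⟩ := hf.surj m hm (π g)
    obtain ⟨s₁, hs₁, he₁⟩ := hkey m hm ⟨g * (ψ s₀)⁻¹, MonoidHom.mem_ker.2 (by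
      rw [map_mul, map_inv, hψ, he, mul_inv_cancel])⟩
    exact ⟨s₁ * s₀, mul_mem hs₁ hs₀, by rw [map_mul, he₁, inv_mul_cancel_right]⟩

end Fermat.Agent.SolvableOverCyclotomic
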