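import Fermat.Agent.SolvableOverCyclotomic.Main
import Fermat.Agent.Root.CyclotomicLevel

/-!
# From levels to fields containing all roots of unity

For an algebraic field `F` containing all roots of unity, homomorphisms with open kernel of its
absolute Galois group extend to levels containing it, and compactness passes from the cyclotomic
levels over a number field to their intersection.
-/

set_option autoImplicit false
set_option linter.unusedSectionVars false

noncomputable section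

local notation "Qb" => AlgebraicClosure ℚ
local notation "GQ" => AlgebraicClosure ℚ ≃ₐ[ℚ] AlgebraicClosure ℚ

namespace Fermat.Agent.SolvableOverCyclotomic

open FA.GalCoh FA.OpenImage

theorem rootsField_fixingSubgroup_le {n : ℕ} (hn : 0 < n) :
    rootsField.fixingSubgroup ≤ fixMu n := fun _ hs μ hμ =>
  (IntermediateField.mem_fixingSubgroup_iff _ _).1 hs μ
    (IntermediateField.subset_adjoin ℚ _ ⟨n, hn, hμ⟩)

theorem mem_rootsField_fixingSubgroup {s : GQ} (h : ∀ n, 0 < n → s ∈ fixMu n) :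
    s ∈ rootsField.fixingSubgroup :=
  (IntermediateField.mem_fixingSubgroup_iff _ _).2 fun _ hx => by
    obtain ⟨m, hm, hfix⟩ := exists_level_of_mem_rootsField hx
    exact hfix s (h m hm)

variable {F : IntermediateField ℚ Qb}

theorem fixingSubgroup_le_fixMu (hF : rootsField ≤ F) {n : ℕ} (hn : 0 < n) :
    F.fixingSubgroup ≤ fixMu n :=
  (IntermediateField.fixingSubgroup_antitone hF).trans (rootsField_fixingSubgroup_le hn)

variable (F) in
/-- The isomorphism with the automorphisms over the field `F`. -/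
def galEquiv : F.fixingSubgroup ≃* (Qb ≃ₐ[F] Qb) := IntermediateField.fixingSubgroupEquiv F

variable {G : Type} [Group G]

/-- A homomorphism of a subgroup as a homomorphism of the absolute Galois group of a field. -/
def toGal {L : Subgroup GQ} (hL : F.fixingSubgroup ≤ L) (f : L →* G) : (Qb ≃ₐ[F] Qb) →* G :=
  (f.comp (Subgroup.inclusion hL)).comp (galEquiv F).symm.toMonoidHom

theorem toGal_galEquiv {L : Subgroup GQ} (hL : F.fixingSubgroup ≤ L) (f : L →* G)
    (s : F.fixingSubgroup) : toGal hL f (galEquiv F s) = f ⟨s, hL s.2⟩ :=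
  congrArg (f.comp (Subgroup.inclusion hL)) ((galEquiv F).symm_apply_apply s)

theorem isOpen_ker_toGal {L : Subgroup GQ} (hL : F.fixingSubgroup ≤ L) {f : L →* G}
    (hf : LC₁ (LQ.sub L) f) : IsOpen ((toGal hL f).ker : Set (Qb ≃ₐ[F] Qb)) := by
  obtain ⟨_, ⟨N, ⟨L', hL', hLN⟩, rfl⟩, hs⟩ := hf
  let b := Module.finBasis ℚ L'
  let E : IntermediateField F Qb :=
    IntermediateField.adjoin F (Set.range fun i => (b i : Qb))
  have : FiniteDimensional F E :=
    IntermediateField.finiteDimensional_adjoin fun x _ => Algebra.IsIntegral.isIntegral x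
  refine Subgroup.isOpen_mono (fun σ hσ => MonoidHom.mem_ker.2 ?_)
    (IntermediateField.fixingSubgroup_isOpen E)
  have hfix : ∀ x ∈ L', σ x = x := fun x hx => by
    have e1 : (x : Qb) = ∑ i, b.repr ⟨x, hx⟩ i • (b i : Qb) := by
      have h1 := congrArg L'.val (b.sum_repr ⟨x, hx⟩)
      rw [map_sum] at h1
      simpa using h1.symm
    rw [e1, map_sum]
    refine Finset.sum_congr rfl fun i _ => ?_
    rw [Algebra.smul_def, map_mul, eq_ratCast (algebraMap ℚ Qb), map_ratCast,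
      (IntermediateField.mem_fixingSubgroup_iff E σ).1 hσ _
        (IntermediateField.subset_adjoin _ _ ⟨i, rfl⟩)]
  have hmem : (((galEquiv F).symm σ : F.fixingSubgroup) : GQ) ∈ N :=
    hLN ((IntermediateField.mem_fixingSubgroup_iff _ _).2 hfix)
  have h := hs 1 (Subgroup.inclusion hL ((galEquiv F).symm σ)) (Subgroup.mem_subgroupOf.2 hmem)
  rwa [one_mul, map_one] at h

/-- **Descent**: a homomorphism with open kernel of the absolute Galois group of `F` extends to a
level containing it. -/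
theorem exists_extend (φ : (Qb ≃ₐ[F] Qb) →* G) (hφ : IsOpen (φ.ker : Set (Qb ≃ₐ[F] Qb))) :
    ∃ (W : Subgroup GQ) (hW : F.fixingSubgroup ≤ W) (f : W →* G),
      W ∈ LQ.carrier ∧ LC₁ (LQ.sub W) f ∧ toGal hW f = φ := by
  classical
  -- a normal level the elements of which over `F` lie in the kernel
  obtain ⟨E, hE, hEle⟩ := (krullTopology_mem_nhds_one_iff _ _ _).1 (hφ.mem_nhds φ.ker.one_mem)
  let b := Module.finBasis F E
  set L : IntermediateField ℚ Qb := IntermediateField.adjoin ℚ (Set.range fun i => (b i : Qb))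
  have : FiniteDimensional ℚ L :=
    IntermediateField.finiteDimensional_adjoin fun x _ => Algebra.IsIntegral.isIntegral x
  obtain ⟨N, hN, hNL, hNn⟩ :=
    LQ.exists_normal (mem_LQ_iff_isOpen.2 (IntermediateField.fixingSubgroup_isOpen L))
  let φ' : F.fixingSubgroup →* G := φ.comp (galEquiv F).toMonoidHom
  have hker : ∀ s : F.fixingSubgroup, (s : GQ) ∈ N → φ' s = 1 := fun s hs => by
    refine MonoidHom.mem_ker.1 (hEle ((IntermediateField.mem_fixingSubgroup_iff _ _).2 ?_))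
    intro x hx
    have e1 : (x : Qb) = ∑ i, b.repr ⟨x, hx⟩ i • (b i : Qb) := by
      have h1 := congrArg E.val (b.sum_repr ⟨x, hx⟩)
      rw [map_sum] at h1
      simpa using h1.symm
    show (galEquiv F s) x = x
    rw [e1, map_sum]
    refine Finset.sum_congr rfl fun i _ => ?_
    rw [Algebra.smul_def, map_mul, (galEquiv F s).commutes]
    exact congrArg (_ * ·) ((IntermediateField.mem_fixingSubgroup_iff _ _).1 (hNL hs) _
      (IntermediateField.subset_adjoin ℚ _ ⟨i, rfl⟩))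
  set W := F.fixingSubgroup ⊔ N
  choose γ hγ u hu hγu using fun σ : W => Subgroup.mem_sup_of_normal_right.1 σ.2
  let f₀ : W → G := fun σ => φ' ⟨γ σ, hγ σ⟩
  have hf₀ : ∀ (σ : W) (g : F.fixingSubgroup) (v : GQ), v ∈ N →
      (g : GQ) * v = σ → f₀ σ = φ' g := fun σ g v hv he => by
    have h1 : g⁻¹ * ⟨γ σ, hγ σ⟩ ∈ φ'.ker := MonoidHom.mem_ker.2 (hker _ (by
      show (g : GQ)⁻¹ * γ σ ∈ N
      rw [show γ σ = (g : GQ) * v * (u σ)⁻¹ by rw [he, ← hγu σ, mul_inv_cancel_right],
        mul_assoc (g : GQ), inv_mul_cancel_left]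
      exact mul_mem hv (inv_mem (hu σ))))
    rw [MonoidHom.mem_ker, map_mul, map_inv, inv_mul_eq_one] at h1
    exact h1.symm
  let f : W →* G := MonoidHom.mk' f₀ fun σ τ => by
    rw [← map_mul φ']
    refine hf₀ _ _ ((γ τ)⁻¹ * u σ * γ τ * u τ) (mul_mem (hNn.conj_mem' _ (hu σ) _) (hu τ)) ?_
    rw [Subgroup.coe_mul, Subgroup.coe_mul, ← hγu σ, ← hγu τ]
    group
  refine ⟨W, le_sup_left, f,
    mem_LQ_iff_isOpen.2 (Subgroup.isOpen_mono le_sup_right (mem_LQ_iff_isOpen.1 hN)),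
    ⟨_, ⟨N, hN, rfl⟩, fun σ s hs => ?_⟩, MonoidHom.ext fun τ => ?_⟩
  · refine hf₀ _ ⟨γ σ, hγ σ⟩ (u σ * (s : GQ)) (mul_mem (hu σ) (Subgroup.mem_subgroupOf.1 hs)) ?_
    rw [Subgroup.coe_mul, ← hγu σ, mul_assoc]
  · exact (hf₀ _ _ 1 (one_mem N) (mul_one _)).trans (congrArg φ ((galEquiv F).apply_symm_apply τ))

variable {H : Subgroup GQ}

/-- A level in which the automorphisms over `F` fill the group gives a cyclotomic surjection. -/
theorem isCycSurj_of_toGal (hF : rootsField ≤ F) {n : ℕ} (hle : F.fixingSubgroup ≤ H ⊓ fixMu n)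
    {W : Subgroup GQ} (hW : F.fixingSubgroup ≤ W) (hHW : H ⊓ fixMu n ≤ W) {f : W →* G}
    (hf : LC₁ (LQ.sub W) f) (hs : Function.Surjective (toGal hW f)) :
    IsCycSurj (f.comp (Subgroup.inclusion hHW)) where
  lc := hf.precomp (compat_inclusion hHW)
  surj m hm g := by
    obtain ⟨τ, rfl⟩ := hs g
    exact ⟨⟨_, hle ((galEquiv F).symm τ).2⟩, fixingSubgroup_le_fixMu hF hm ((galEquiv F).symm τ).2,
      rfl⟩

/-- A level containing `F` contains a cyclotomic level over `H`. -/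
theorem exists_lev_le (hH : H ∈ LQ.carrier)
    (hmem : ∀ s ∈ H, (∀ m, 0 < m → s ∈ fixMu m) → s ∈ F.fixingSubgroup) {W : Subgroup GQ}
    (hW : W ∈ LQ.carrier) (hFW : F.fixingSubgroup ≤ W) : ∃ n, 0 < n ∧ H ⊓ fixMu n ≤ W := by
  by_contra hne
  push Not at hne
  let S : ℕ → Set GQ := fun k =>
    ((H ⊓ fixMu (k + 1).factorial : Subgroup GQ) : Set GQ) ∩ (W : Set GQ)ᶜ
  have hcl : ∀ k, IsClosed (S k) := fun k => (Subgroup.isClosed_of_isOpen _
    (mem_LQ_iff_isOpen.1 (LQ.inf_mem hH (fixMu_mem (Nat.factorial_pos _))))).inter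
      (mem_LQ_iff_isOpen.1 hW).isClosed_compl
  obtain ⟨s, hsS⟩ := IsCompact.nonempty_iInter_of_sequence_nonempty_isCompact_isClosed S
    (fun k => Set.inter_subset_inter_left _
      (lev_le_of_dvd H (Nat.factorial_dvd_factorial (Nat.le_succ _))))
    (fun k => Set.not_subset.1 (hne _ (Nat.factorial_pos _)))
    (hcl 0).isCompact hcl
  rw [Set.mem_iInter] at hsS
  exact (hsS 0).2 (hFW (hmem s (hsS 0).1.1 fun m hm =>
    fixMu_le_of_dvd (Nat.dvd_factorial hm (Nat.le_succ m)) (hsS m).1.2))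

/-- Surjective on every level means surjective on their intersection. -/
theorem IsCycSurj.toGal_surjective (hH : H ∈ LQ.carrier)
    (hmem : ∀ s ∈ H, (∀ m, 0 < m → s ∈ fixMu m) → s ∈ F.fixingSubgroup) {n : ℕ} (hn : 0 < n)
    (hle : F.fixingSubgroup ≤ H ⊓ fixMu n) {f : ↥(H ⊓ fixMu n) →* G} (hf : IsCycSurj f) :
    Function.Surjective (toGal hle f) := fun g => by
  classical
  obtain ⟨_, ⟨N, hN, rfl⟩, hs⟩ := hf.lc
  have hM := mem_LQ_iff_isOpen.1 (LQ.inf_mem hN (LQ.inf_mem hH (fixMu_mem hn)))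
  let S₀ : Set GQ := {s | ∃ h : s ∈ H ⊓ fixMu n, f ⟨s, h⟩ = g}
  have hS₀ : IsClosed S₀ := by
    rw [← isOpen_compl_iff, isOpen_iff_forall_mem_open]
    intro s hsS
    refine ⟨(s * ·) '' ((N ⊓ (H ⊓ fixMu n) : Subgroup GQ) : Set GQ), ?_,
      (isOpenMap_mul_left s) _ hM, ⟨1, one_mem _, mul_one s⟩⟩
    rintro _ ⟨u, hu, rfl⟩ ⟨h, he⟩
    have hsn : s ∈ H ⊓ fixMu n := by simpa using mul_mem h (inv_mem hu.2)
    refine hsS ⟨hsn, ?_⟩
    rw [← hs ⟨s, hsn⟩ ⟨u, hu.2⟩ (Subgroup.mem_subgroupOf.2 hu.1)]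
    exact he
  let S : ℕ → Set GQ := fun k => S₀ ∩ (fixMu (k + 1).factorial : Set GQ)
  have hcl : ∀ k, IsClosed (S k) := fun k => hS₀.inter (Subgroup.isClosed_of_isOpen _
    (mem_LQ_iff_isOpen.1 (fixMu_mem (Nat.factorial_pos _))))
  obtain ⟨s, hsS⟩ := IsCompact.nonempty_iInter_of_sequence_nonempty_isCompact_isClosed S
    (fun k => Set.inter_subset_inter_right _
      (fixMu_le_of_dvd (Nat.factorial_dvd_factorial (Nat.le_succ _))))
    (fun k => by
      obtain ⟨s, hs, he⟩ := hf.surj _ (Nat.factorial_pos (k + 1)) g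
      exact ⟨s, ⟨s.2, he⟩, hs⟩)
    (hcl 0).isCompact hcl
  rw [Set.mem_iInter] at hsS
  obtain ⟨h, he⟩ := (hsS 0).1
  refine ⟨galEquiv F ⟨s, hmem s h.1 fun m hm =>
    fixMu_le_of_dvd (Nat.dvd_factorial hm (Nat.le_succ m)) (hsS m).2⟩, ?_⟩
  exact (toGal_galEquiv hle f _).trans he

end Fermat.Agent.SolvableOverCyclotomic
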