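import Fermat.Agent.SolvableOverCyclotomic.LocalKill
import Fermat.Agent.ScholzReichardt.Basic
import Fermat.Agent.GolodCriterion.Classes

/-!
# Central embedding problems die in cyclotomic extensions

A central embedding problem with kernel of order `p` over a totally complex number field with the
`p`-th roots of unity becomes soluble after adjoining roots of unity: outside a finite set of
primes it is soluble locally through the unramified quotient, at each of the others a cyclotomic
extension kills the local classes, and the Hasse principle finishes.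
-/

set_option autoImplicit false
set_option linter.unusedSectionVars false

noncomputable section

namespace Fermat.Agent.SolvableOverCyclotomic

open FA.GalCoh ScholzReichardt

variable {p : ℕ} [hp : Fact p.Prime]

set_option maxHeartbeats 800000 in
-- nested subgroups of the Galois group are slow to unify
/-- **Central embedding problems are soluble over a cyclotomic extension.** -/
theorem exists_lift_cyclotomic {E : Type} [Group E] [Finite E] {G : Type} [Group G]
    {H : Subgroup GQ} (hH : H ∈ LQ.carrier) (hH1 : ∀ h ∈ H, (cycQ p).χ h = 1) (hT : TC H)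
    (D : CExt p E G) (f : H →* G) (hf : LC₁ (LQ.sub H) f) :
    ∃ m, 0 < m ∧ ∃ ψ : ↥(H ⊓ fixMu m) →* E, LC₁ (LQ.sub (H ⊓ fixMu m)) ψ ∧
      ∀ g, D.π (ψ g) = f (Subgroup.inclusion inf_le_left g) := by
  classical
  let s : G → E := Function.surjInv D.surj
  have hs : ∀ g, D.π (s g) = g := Function.surjInv_eq D.surj
  have hc0 : ∀ g h : H, D.π (s (f g) * s (f h) * (s (f (g * h)))⁻¹) = 1 := fun g h => by
    rw [map_mul, map_mul, map_inv, hs, hs, hs, map_mul, mul_inv_cancel]
  choose c hc using fun x : H × H => D.exists_ja (hc0 x.1 x.2)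
  have hmul : ∀ g h, s (f g) * s (f h) = D.ja (c (g, h)) * s (f (g * h)) := fun g h => by
    rw [hc (g, h), inv_mul_cancel_right]
  obtain ⟨N, hN, hNs⟩ := id hf
  have hclc : LC₂ (LQ.sub H) c := ⟨N, hN, fun g g' u u' hu hu' => D.ja_injective (by
    rw [hc, hc]
    rw [map_mul f (g * u) (g' * u'), map_mul f g g', hNs g u hu, hNs g' u' hu'])⟩
  have hcoc : ∀ g h k, c (g * h, k) + c (g, h) = c (h, k) + c (g, h * k) := fun g h k => by
    refine D.ja_injective (mul_right_cancel (b := s (f (g * (h * k)))) ?_)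
    rw [D.ja_add, D.ja_add]
    calc D.ja (c (g * h, k)) * D.ja (c (g, h)) * s (f (g * (h * k)))
        = D.ja (c (g, h)) * (D.ja (c (g * h, k)) * s (f (g * h * k))) := by
          rw [D.ja_comm, mul_assoc g h k, mul_assoc]
      _ = D.ja (c (g, h)) * s (f (g * h)) * s (f k) := by rw [← hmul, ← mul_assoc]
      _ = s (f g) * (s (f h) * s (f k)) := by rw [← hmul, mul_assoc]
      _ = s (f g) * D.ja (c (h, k)) * s (f (h * k)) := by rw [hmul, mul_assoc]
      _ = D.ja (c (h, k)) * (D.ja (c (g, h * k)) * s (f (g * (h * k)))) := by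
          rw [← D.ja_comm, mul_assoc, hmul]
      _ = _ := by rw [mul_assoc]
  let Z : ↥(Z2 (LQ.sub H) (triv H p)) := ⟨c, hclc, fun g h k => hcoc g h k⟩
  set z := mk2 (LQ.sub H) (triv H p) Z with hz
  -- the class is unramified almost everywhere, hence locally trivial there
  obtain ⟨S, hS⟩ := GolodCriterion.exists_finset_unr hH f hf
  have hout : ∀ q : Nat.Primes, q ∉ S → ∀ g : GQ, locH2 H (q : ℕ) g z = 0 := fun q hq g => by
    obtain ⟨τ₀, hτ₀⟩ := GolodCriterion.exists_unr_local_lift (E := E) (hloc_mem (q := (q : ℕ)) hH g)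
      D.π (f.comp (locTo H (q : ℕ) g)) (hf.precomp (compat_locTo g)) (hS q hq g)
    obtain ⟨e, he⟩ := D.surj (f.comp (locTo H (q : ℕ) g) τ₀)
    obtain ⟨β, hβlc, -, hβ, -⟩ := hτ₀ e he
    have hb0 : ∀ τ, D.π (β τ * (s (f (locTo H (q : ℕ) g τ)))⁻¹) = 1 := fun τ => by
      rw [map_mul, map_inv, hs, hβ]
      exact mul_inv_cancel _
    choose a ha using fun τ => D.exists_ja (hb0 τ)
    refine (mk2_eq_zero _ _ _).2 ⟨fun τ => -a τ, ?_, funext fun x => ?_⟩
    · obtain ⟨M, hM, hMs⟩ := hβlc
      obtain ⟨M', hM', hM's⟩ := hf.precomp (compat_locTo (q := (q : ℕ)) g)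
      refine ⟨M ⊓ M', ((LL (q : ℕ)).sub (hloc H (q : ℕ) g)).inf_mem hM hM',
        fun τ u hu => congrArg Neg.neg (D.ja_injective ?_)⟩
      have h1 : β (τ * u) = β τ := hMs τ u hu.1
      have h2 : f (locTo H (q : ℕ) g (τ * u)) = f (locTo H (q : ℕ) g τ) := hM's τ u hu.2
      rw [ha, ha, h1, h2]
    · show -a x.2 - -a (x.1 * x.2) + -a x.1
        = c (locTo H (q : ℕ) g x.1, locTo H (q : ℕ) g x.2)
      set X₁ := locTo H (q : ℕ) g x.1
      set X₂ := locTo H (q : ℕ) g x.2
      have h12 : locTo H (q : ℕ) g (x.1 * x.2) = X₁ * X₂ := map_mul _ _ _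
      have e' : a (x.1 * x.2) = a x.1 + a x.2 + c (X₁, X₂) := by
        refine D.ja_injective (mul_right_cancel (b := s (f (X₁ * X₂))) ?_)
        have e1 : β x.1 = D.ja (a x.1) * s (f X₁) := by rw [ha, inv_mul_cancel_right]
        have e2 : β x.2 = D.ja (a x.2) * s (f X₂) := by rw [ha, inv_mul_cancel_right]
        calc D.ja (a (x.1 * x.2)) * s (f (X₁ * X₂)) = β (x.1 * x.2) := by
              rw [ha, h12, inv_mul_cancel_right]
          _ = D.ja (a x.1) * (s (f X₁) * D.ja (a x.2)) * s (f X₂) := by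
              rw [map_mul, e1, e2]; group
          _ = D.ja (a x.1) * D.ja (a x.2) * (s (f X₁) * s (f X₂)) := by
              rw [← D.ja_comm]; group
          _ = D.ja (a x.1 + a x.2 + c (X₁, X₂)) * s (f (X₁ * X₂)) := by
              rw [hmul, D.ja_add, D.ja_add]; group
      rw [e']
      abel
  -- the other primes are killed by roots of unity
  choose M hMpos hM using fun q : Nat.Primes =>
    exists_locH2_eq_zero hH ((cycQ p).kumData H hH1) (q : ℕ)
  have hm : 0 < ∏ q ∈ S, M q := Finset.prod_pos fun q _ => hMpos q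
  refine ⟨_, hm, ?_⟩
  set H' := H ⊓ fixMu (∏ q ∈ S, M q) with hH'def
  have hH' : H' ∈ LQ.carrier := LQ.inf_mem hH (fixMu_mem hm)
  have hle : H' ≤ H := inf_le_left
  have hloc' : LocTriv2 H' (res2t (compat_inclusion hle) z) := fun q hq g => by
    by_cases hqS : (⟨q, hq.out⟩ : Nat.Primes) ∈ S
    · exact hM ⟨q, hq.out⟩ H' hle
        (inf_le_right.trans (fixMu_le_of_dvd (Finset.dvd_prod_of_mem M hqS))) g z
    · have h0 := congrArg (res2t (p := p) (compat_inclusion (L := LL q) (hloc_mono hle q g)))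
        (hout ⟨q, hq.out⟩ hqS g)
      rw [map_zero] at h0
      rw [← h0]
      rfl
  have hzero : mk2 (LQ.sub H') (triv H' p)
      (mapZ2 (compat_inclusion hle) (equi_triv (Subgroup.inclusion hle)) Z) = 0 :=
    hasse_H2 hH' (hT.mono hle) ((cycQ p).kumData H' fun h hh => hH1 h (hle hh)) hloc'
  obtain ⟨b, hblc, hb⟩ := (mk2_eq_zero _ _ _).1 hzero
  set i := Subgroup.inclusion hle
  have hb' : ∀ g h, c (i g, i h) = b h - b (g * h) + b g := fun g h => (congrFun hb (g, h)).symm
  let ψ : H' →* E := MonoidHom.mk' (fun g => D.ja (-b g) * s (f (i g))) fun g h => by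
    calc D.ja (-b (g * h)) * s (f (i (g * h)))
        = D.ja (-b g + -b h) * (D.ja (c (i g, i h)) * s (f (i g * i h))) := by
          rw [← mul_assoc, ← D.ja_add, hb', ← map_mul i]
          congr 2
          abel
      _ = D.ja (-b g) * (D.ja (-b h) * s (f (i g))) * s (f (i h)) := by
          rw [← hmul, D.ja_add]; group
      _ = _ := by rw [D.ja_comm (-b h)]; group
  refine ⟨ψ, hblc.map₂ (hf.precomp (compat_inclusion hle)) fun u v => D.ja (-u) * s v,
    fun g => ?_⟩
  show D.π (D.ja (-b g) * s (f (i g))) = _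
  rw [map_mul, D.π_ja, one_mul, hs]

end Fermat.Agent.SolvableOverCyclotomic
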