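import Fermat.Agent.SolvableOverCyclotomic.Levels
import Fermat.Agent.GalCoh.LocalH2
import Fermat.Agent.GalCoh.UnrLocal
import Fermat.Agent.GalCoh.CycloGlobal

/-!
# Local classes die in cyclotomic unramified extensions

Over a local field with the `p`-th roots of unity restriction to an extension of degree divisible by
`p` kills the classes of degree two, corestriction being injective on the lines; and every finite
extension of `ℚ_q` has such an extension generated by roots of unity.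
-/

set_option autoImplicit false
set_option linter.unusedSectionVars false

noncomputable section

namespace Fermat.Agent.SolvableOverCyclotomic

open FA.GalCoh

variable {q : ℕ} [hq : Fact q.Prime] {p : ℕ} [hp : Fact p.Prime]

set_option maxHeartbeats 1000000 in
-- nested subgroups of the Galois group are slow to unify
/-- Restriction to the kernel of a character kills the second cohomology. -/
theorem res2t_eq_zero_of_char {D D' : Subgroup (LG q)} (hD : D ∈ (LL q).carrier)
    (K : KumData ((LL q).sub D) (PadicAlgCl q) p) {χ : D → ZMod p} (C : CycData ((LL q).sub D) χ)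
    (hle : D' ≤ D) (hker : ∀ τ : D', χ (Subgroup.inclusion hle τ) = 0)
    (z : H2 ((LL q).sub D) (triv D p)) : res2t (compat_inclusion hle) z = 0 := by
  let _ := C.action
  set H' := kerSub C
  have hH' : H' ∈ (LL q).carrier := kerSub_mem hD C
  have hle' : H' ≤ D := Subgroup.map_subtype_le _
  have hker' : ∀ g : H', χ ⟨g.1, hle' g.2⟩ = 0 := fun g => by
    obtain ⟨⟨h, hh⟩, hk, hval⟩ := g.2
    have : (⟨g.1, hle' g.2⟩ : D) = ⟨h, hh⟩ := Subtype.ext hval.symm
    rw [this]; exact hk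
  let ι : H' →* C.trans.H := (Subgroup.inclusion hle').codRestrict _ fun g =>
    (C.mem_trans_H _).2 (hker' g)
  let j : C.trans.H →* H' := ((D.subtype.comp C.trans.H.subtype)).codRestrict _ fun g =>
    ⟨g.1, (C.mem_trans_H g.1).1 g.2, rfl⟩
  let k : D' →* C.trans.H := (Subgroup.inclusion hle).codRestrict _ fun g =>
    (C.mem_trans_H _).2 (hker g)
  have hι : Compat (((LL q).sub D).sub C.trans.H) ((LL q).sub H') ι := by
    rintro _ ⟨_, ⟨N, hN, rfl⟩, rfl⟩
    exact ⟨_, ⟨N, hN, rfl⟩, fun g hg => hg⟩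
  have hk : Compat (((LL q).sub D).sub C.trans.H) ((LL q).sub D') k := by
    rintro _ ⟨_, ⟨N, hN, rfl⟩, rfl⟩
    exact ⟨_, ⟨N, hN, rfl⟩, fun g hg => hg⟩
  have hj : Compat ((LL q).sub H') (((LL q).sub D).sub C.trans.H) j := by
    rintro _ ⟨N, hN, rfl⟩
    exact ⟨_, ⟨_, ⟨N, hN, rfl⟩, rfl⟩, fun g hg => hg⟩
  have hinj : Function.Injective (res2t (p := p) hι) := res2t_injective hι hj fun g => rfl
  obtain ⟨u, hu0, hu, -⟩ := exists_generator_H2 hH' (K.restrict hle')
  obtain ⟨-, -, -, hnd⟩ := exists_line_local hD K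
  have hidx := norms_index hD K C
  have hlt : (K.norms C).index < Nat.card (H1 ((LL q).sub D) (triv D p)) := by
    rw [hidx, natCard_H1 hD K]
    calc p = p ^ 1 := (pow_one p).symm
      _ < _ := Nat.pow_lt_pow_right hp.out.one_lt (by omega)
  obtain ⟨x, y, hxy⟩ := exists_cor_ne_zero K C hlt (by rw [hidx]; exact hp.out.ne_zero) hnd
  set w := map2 (Levels.sub_compat _ C.trans.H) (Equi.res C.trans.H.subtype (triv D p)) z with hw
  obtain ⟨a, ha⟩ := Submodule.mem_span_singleton.1 (hu (res2t hι w))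
  obtain ⟨b, hb⟩ := Submodule.mem_span_singleton.1 (hu (res2t hι (symb x y)))
  have hb0 : b ≠ 0 := fun h => hxy (by
    rw [h, zero_smul, eq_comm] at hb
    rw [hinj (hb.trans (map_zero _).symm), map_zero])
  have hwe : w = (a * b⁻¹) • symb x y := hinj (by
    rw [map_smul, ← hb, smul_smul, mul_assoc, inv_mul_cancel₀ hb0, mul_one, ha])
  have hcor : C.trans.cor2 (triv D p) w = 0 := by
    rw [hw, C.trans.cor2_res, ZMod.card p, ← Nat.cast_smul_eq_nsmul (ZMod p), ZMod.natCast_self,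
      zero_smul]
  rw [hwe] at hcor
  have hab : (a * b⁻¹) • C.trans.cor2 (triv D p) (symb x y) = 0 := by rw [← map_smul]; exact hcor
  have hw0 : w = 0 := by rw [hwe, (smul_eq_zero.1 hab).resolve_right hxy, zero_smul]
  have h := congrArg (res2t (p := p) hk) hw0
  rw [map_zero] at h
  rw [← h, hw]
  obtain ⟨Z, rfl⟩ := mk2_surjective z
  rfl

theorem frobExp_eq_zero_of_fixMu {e : ℕ} [NeZero e] {τ : LG q}
    (h : loc q τ ∈ fixMu (q ^ e - 1)) : frobExp e τ = 0 := by
  rw [← Nat.cast_zero]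
  refine frobExp_eq fun x hx => ?_
  obtain ⟨y, hy, rfl⟩ := exists_iota_root (expOrder_pos e (Nat.pos_of_neZero e)) hx
  rw [pow_zero, pow_one, ← iota_loc, h y hy]

/-- At a prime one cyclotomic level gives a non-trivial character at all places of a level. -/
theorem exists_cyclotomic_chars {H : Subgroup GQ} (hH : H ∈ LQ.carrier) (q : ℕ) [Fact q.Prime] :
    ∃ m, 0 < m ∧ ∀ g : GQ, ∃ (χ : hloc H q g → ZMod p)
      (_ : CycData ((LL q).sub (hloc H q g)) χ),
      ∀ τ : hloc H q g, loc q (τ : LG q) ∈ fixMu m → χ τ = 0 := by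
  obtain ⟨N, hN, hle, hn⟩ := LQ.exists_normal hH
  obtain ⟨N', hN', hle'⟩ := compat_loc (q := q) _ hN
  obtain ⟨n₀, hn₀, hmem⟩ := exists_frobL_pow_mem hN'
  obtain ⟨v, r, hr, he⟩ := Nat.exists_eq_pow_mul_and_not_dvd hn₀.ne' p hp.out.ne_one
  set e := p ^ (v + 1) with hedef
  have : NeZero e := ⟨pow_ne_zero _ hp.out.ne_zero⟩
  refine ⟨q ^ e - 1, expOrder_pos e (Nat.pos_of_neZero e), fun g => ?_⟩
  set D := hloc H q g
  have hD : D ∈ (LL q).carrier := hloc_mem hH g
  have hmemD : frobL q ^ n₀ ∈ D := (mem_hloc H).2 (hle (hn.conj_mem' _ (hle' hmem) g))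
  let u : D →* Multiplicative (ZMod e) :=
    MonoidHom.mk' (fun τ => Multiplicative.ofAdd (frobExp e (τ : LG q))) fun a b => by
      rw [Subgroup.coe_mul, frobExp_mul, ofAdd_add]
  obtain ⟨M₁, hM₁, hM₁s⟩ := frobExp_lc (q := q) e
  have hu : u.ker ∈ ((LL q).sub D).carrier := by
    obtain ⟨F, hF, hFle⟩ := (LL q).inf_mem hM₁ hD
    refine ⟨u.ker.map D.subtype, ⟨F, hF, fun τ hτ => ⟨⟨τ, (hFle hτ).2⟩, ?_, rfl⟩⟩,
      Subgroup.comap_map_eq_self_of_injective D.subtype_injective _⟩
    show Multiplicative.ofAdd (frobExp e τ) = 1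
    have h0 := hM₁s 1 τ (hFle hτ).1
    rw [one_mul] at h0
    rw [h0, ← pow_zero (frobL q), frobExp_frobL_pow, Nat.cast_zero, ofAdd_zero]
  have : u.ker.FiniteIndex := ((LL q).sub D).finiteIndex hu
  have hdvd : u.ker.index ∣ p ^ (v + 1) := by
    rw [Subgroup.index_ker]
    refine (Subgroup.card_subgroup_dvd_card _).trans (dvd_of_eq ?_)
    rw [Nat.card_congr Multiplicative.toAdd, Nat.card_zmod]
  obtain ⟨k, -, hk⟩ := (Nat.dvd_prime_pow hp.out).1 hdvd
  have hk0 : k ≠ 0 := fun h0 => by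
    rw [h0, pow_zero, Subgroup.index_eq_one] at hk
    have h1 : frobExp e (frobL q ^ n₀) = 0 := Multiplicative.ofAdd.injective
      (MonoidHom.mem_ker.1 (hk ▸ Subgroup.mem_top (⟨_, hmemD⟩ : D) : _ ∈ u.ker))
    rw [frobExp_frobL_pow, ZMod.natCast_eq_zero_iff, hedef, he, pow_succ,
      Nat.mul_dvd_mul_iff_left (pow_pos hp.out.pos v)] at h1
    exact hr h1
  obtain ⟨k', rfl⟩ := Nat.exists_eq_succ_of_ne_zero hk0
  obtain ⟨χ, C, hχ⟩ := exists_cycData_of_pGroup u.ker hu hk
  exact ⟨χ, C, fun τ hτ => hχ τ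
    (MonoidHom.mem_ker.2 (congrArg Multiplicative.ofAdd (frobExp_eq_zero_of_fixMu hτ)))⟩

/-- The local classes of a level die over a cyclotomic level. -/
theorem exists_locH2_eq_zero {H : Subgroup GQ} (hH : H ∈ LQ.carrier)
    (K : KumData (LQ.sub H) (AlgebraicClosure ℚ) p) (q : ℕ) [Fact q.Prime] :
    ∃ m, 0 < m ∧ ∀ (H' : Subgroup GQ) (hle : H' ≤ H), H' ≤ fixMu m →
      ∀ (g : GQ) (z : H2 (LQ.sub H) (triv H p)),
        locH2 H' q g (res2t (compat_inclusion hle) z) = 0 := by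
  obtain ⟨m, hm, h⟩ := exists_cyclotomic_chars (p := p) hH q
  refine ⟨m, hm, fun H' hle hle' g z => ?_⟩
  obtain ⟨χ, C, hχ⟩ := h g
  have h0 := res2t_eq_zero_of_char (hloc_mem hH g) (locKum K q g) C (hloc_mono hle q g)
    (fun τ => hχ _ (by
      have h1 := hle' ((mem_hloc H').1 τ.2)
      have h2 := (normal_fixMu m).conj_mem _ h1 g
      rwa [show g * (g⁻¹ * loc q (τ : LG q) * g) * g⁻¹ = loc q (τ : LG q) by group] at h2))
    (locH2 H q g z)
  rw [← h0]
  obtain ⟨Z, rfl⟩ := mk2_surjective z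
  rfl

end Fermat.Agent.SolvableOverCyclotomic
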