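import Fermat.Agent.SolvableOverCyclotomic.Sylow
import Fermat.Agent.SolvableOverCyclotomic.Split

/-!
# Embedding problems with solvable kernel over cyclotomic fields

By induction along a minimal normal subgroup `A`, elementary abelian for a prime `p`: a solution
on a Sylow `p`-subgroup of the quotient averages to one over a smaller cyclotomic level; if it is
not surjective on all levels, then `A` has a complement and the split problem is soluble.
-/

set_option autoImplicit false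
set_option linter.unusedSectionVars false

noncomputable section

namespace Fermat.Agent.SolvableOverCyclotomic

open FA.GalCoh

/-- A non-trivial solvable normal subgroup contains an elementary abelian minimal normal
subgroup. -/
theorem exists_minimal_normal_le {G : Type} [Group G] [Finite G] {K : Subgroup G} [K.Normal]
    [Group.IsSolvable K] (hK : K ≠ ⊥) :
    ∃ (A : Subgroup G) (p : ℕ), A.Normal ∧ A ≤ K ∧ p.Prime ∧ A ≠ ⊥ ∧ (∀ a ∈ A, a ^ p = 1) ∧
      (∀ a ∈ A, ∀ b ∈ A, a * b = b * a) ∧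
      ∀ B : Subgroup G, B.Normal → B ≤ A → B = ⊥ ∨ B = A := by
  obtain ⟨A, ⟨hAn, hA0, hAK⟩, hmin⟩ := exists_minimal_of_wellFoundedLT
    (fun A : Subgroup G => A.Normal ∧ A ≠ ⊥ ∧ A ≤ K) ⟨K, inferInstance, hK, le_rfl⟩
  have hmin' : ∀ B : Subgroup G, B.Normal → B ≤ A → B = ⊥ ∨ B = A := fun B hB hle => by
    by_cases h : B = ⊥
    · exact Or.inl h
    · exact Or.inr (le_antisymm hle (hmin ⟨hB, h, hle.trans hAK⟩ hle))
  have : Group.IsSolvable A :=
    Group.isSolvable_of_isSolvable_injective (Subgroup.inclusion_injective hAK)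
  have : Nontrivial A := (Subgroup.nontrivial_iff_ne_bot A).2 hA0
  have hne : ⁅A, A⁆ ≠ A := fun h => by
    refine (Group.IsSolvable.commutator_lt_top_of_nontrivial (G := A)).ne
      (Subgroup.map_injective A.subtype_injective ?_)
    rw [Subgroup.map_subtype_commutator, h, ← MonoidHom.range_eq_map, Subgroup.range_subtype]
  have hcomm : ∀ a ∈ A, ∀ b ∈ A, a * b = b * a := fun a ha b hb => by
    rcases hmin' ⁅A, A⁆ inferInstance (Subgroup.commutator_le_left A A) with h | h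
    · exact Subgroup.mem_centralizer_iff.1
        ((Subgroup.commutator_eq_bot_iff_le_centralizer.1 h) hb) a ha
    · exact absurd h hne
  obtain ⟨p, hp, hdvd⟩ := Nat.exists_prime_and_dvd (n := Nat.card A)
    (fun h => hA0 (Subgroup.eq_bot_of_card_eq A h))
  have : Fact p.Prime := ⟨hp⟩
  let P : Subgroup G :=
    { carrier := {a | a ∈ A ∧ a ^ p = 1}
      one_mem' := ⟨A.one_mem, one_pow p⟩
      mul_mem' := fun {a b} ha hb => ⟨A.mul_mem ha.1 hb.1, by
        rw [(show Commute a b from hcomm a ha.1 b hb.1).mul_pow, ha.2, hb.2, one_mul]⟩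
      inv_mem' := fun {a} ha => ⟨A.inv_mem ha.1, by rw [inv_pow, ha.2, inv_one]⟩ }
  have hP : P.Normal := ⟨fun a ha g => ⟨hAn.conj_mem a ha.1 g, by
    rw [← MulAut.conj_apply, ← map_pow, ha.2, map_one]⟩⟩
  obtain ⟨a, ha⟩ := exists_prime_orderOf_dvd_card' p hdvd
  have haP : (a : G) ∈ P := ⟨a.2, by rw [← Subgroup.coe_pow, ← ha, pow_orderOf_eq_one]; rfl⟩
  have hPA : P = A := (hmin' P hP fun x hx => hx.1).resolve_left fun h => hp.ne_one (by
    rw [h, Subgroup.mem_bot, OneMemClass.coe_eq_one] at haP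
    rw [← ha, haP, orderOf_one])
  exact ⟨A, p, hAn, hAK, hp, hA0, fun a ha => (hPA.ge ha).2, hcomm, hmin'⟩

set_option maxHeartbeats 800000 in
-- nested subgroups of the Galois group are slow to unify
/-- The step along an elementary abelian minimal normal subgroup. -/
theorem exists_step {E : Type} [Group E] [Finite E] (A : Subgroup E) [hAn : A.Normal] {p : ℕ}
    [hp : Fact p.Prime] (hexp : ∀ a ∈ A, a ^ p = 1) (hcomm : ∀ a ∈ A, ∀ b ∈ A, a * b = b * a)
    (hmin : ∀ B : Subgroup E, B.Normal → B ≤ A → B = ⊥ ∨ B = A) {H : Subgroup GQ}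
    (hH : H ∈ LQ.carrier) {n₀ : ℕ} (hn₀ : 0 < n₀) (f₀ : ↥(H ⊓ fixMu n₀) →* E ⧸ A)
    (hf₀ : IsCycSurj f₀) :
    ∃ n', n₀ ∣ n' ∧ 4 ∣ n' ∧ 0 < n' ∧ ∃ ψ : ↥(H ⊓ fixMu n') →* E, IsCycSurj ψ ∧
      ∀ (g : GQ) (h : g ∈ H ⊓ fixMu n₀) (h' : g ∈ H ⊓ fixMu n'),
        QuotientGroup.mk' A (ψ ⟨g, h'⟩) = f₀ ⟨g, h⟩ := by
  let π : E →* E ⧸ A := QuotientGroup.mk' A
  have hπ : Function.Surjective π := QuotientGroup.mk'_surjective A
  have hker : π.ker = A := QuotientGroup.ker_mk' A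
  set n := n₀ * (4 * p) with hndef
  have hn : 0 < n := Nat.mul_pos hn₀ (Nat.mul_pos (by norm_num) hp.out.pos)
  have h4 : 4 ∣ n := (dvd_mul_right 4 p).trans (dvd_mul_left _ n₀)
  have hpn : p ∣ n := (dvd_mul_left p 4).trans (dvd_mul_left _ n₀)
  set f := f₀.comp (Subgroup.inclusion (lev_le_of_dvd H (dvd_mul_right n₀ (4 * p))))
  have hf : IsCycSurj f := hf₀.comp_inclusion hn (dvd_mul_right n₀ (4 * p))
  -- the problem over the fixed field of a Sylow subgroup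
  let P : Sylow p (E ⧸ A) := default
  let K₀ : Subgroup GQ := ((P : Subgroup (E ⧸ A)).comap f).map (H ⊓ fixMu n).subtype
  have hK₀le : K₀ ≤ H ⊓ fixMu n := Subgroup.map_subtype_le _
  have hK₀P : ∀ g (hg : g ∈ K₀), f ⟨g, hK₀le hg⟩ ∈ P := by
    rintro _ ⟨x, hx, rfl⟩
    exact hx
  have hK₀ : K₀ ∈ LQ.carrier := by
    obtain ⟨_, ⟨N₁, hN₁, rfl⟩, hs⟩ := hf.lc
    refine mem_LQ_iff_isOpen.2 (Subgroup.isOpen_mono (fun g hg => ?_)
      (mem_LQ_iff_isOpen.1 (LQ.inf_mem hN₁ (LQ.inf_mem hH (fixMu_mem hn)))))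
    have h := hs 1 ⟨g, hg.2⟩ (Subgroup.mem_subgroupOf.2 hg.1)
    rw [one_mul, map_one] at h
    exact ⟨⟨g, hg.2⟩, Subgroup.mem_comap.2 (h ▸ one_mem _), rfl⟩
  let PE : Subgroup E := (P : Subgroup (E ⧸ A)).comap π
  have hE : IsPGroup p PE := P.2.comap_of_ker_isPGroup π fun a =>
    ⟨1, Subtype.ext (by rw [pow_one]; exact hexp _ (hker.le a.2))⟩
  let fK : K₀ →* P := (f.comp (Subgroup.inclusion hK₀le)).codRestrict _ fun g => hK₀P g g.2
  have hfK : LC₁ (LQ.sub K₀) fK := by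
    obtain ⟨M, hM, hMs⟩ := hf.lc.precomp (compat_inclusion hK₀le)
    exact ⟨M, hM, fun g s h => Subtype.ext (hMs g s h)⟩
  obtain ⟨m, hm, ψ₁, hψ₁, hψ₁l⟩ := exists_lift_pGroup (p := p)
    (π.subgroupComap (P : Subgroup (E ⧸ A)))
    (π.subgroupComap_surjective_of_surjective _ hπ) hE hK₀
    (fun h hh => cycloChar_eq_one hpn (hK₀le hh).2)
    ((tc_fixMu h4).mono (hK₀le.trans inf_le_right)) fK hfK
  -- averaging
  have hn' : 0 < n * m := Nat.mul_pos hn hm
  set f' := f.comp (Subgroup.inclusion (lev_le_of_dvd H (dvd_mul_right n m)))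
  have hf' : IsCycSurj f' := hf.comp_inclusion hn' (dvd_mul_right n m)
  have hf's : Function.Surjective f' := fun g =>
    (hf'.surj 1 Nat.one_pos g).imp fun _ h => h.2
  let K := K₀.subgroupOf (H ⊓ fixMu (n * m))
  have hK : K ∈ (LQ.sub (H ⊓ fixMu (n * m))).carrier := ⟨K₀, hK₀, rfl⟩
  have hidx : ¬ p ∣ K.index := by
    have hKeq : K = (P : Subgroup (E ⧸ A)).comap f' := by
      ext g
      exact ⟨fun h => hK₀P _ h, fun h => ⟨_, h, rfl⟩⟩
    rw [hKeq, Subgroup.index_comap_of_surjective _ hf's]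
    exact P.not_dvd_index
  let i : K →* ↥(K₀ ⊓ fixMu m) :=
    ((H ⊓ fixMu (n * m)).subtype.comp K.subtype).codRestrict _ fun g =>
      ⟨g.2, fixMu_le_of_dvd (dvd_mul_left m n) g.1.2.2⟩
  have hi : Compat (LQ.sub (K₀ ⊓ fixMu m)) ((LQ.sub (H ⊓ fixMu (n * m))).sub K) i := by
    rintro _ ⟨M, hM, rfl⟩
    exact ⟨_, ⟨_, ⟨M, hM, rfl⟩, rfl⟩, fun g hg => hg⟩
  obtain ⟨ψ, hψlc, hψ⟩ := exists_hom_of_coprime (p := p) π hπ
    (fun a ha b hb => hcomm a (hker.le ha) b (hker.le hb)) (fun a ha => hexp a (hker.le ha))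
    f' hK hidx (PE.subtype.comp (ψ₁.comp i)) ((hψ₁.precomp hi).comp PE.subtype)
    fun k => congrArg Subtype.val (hψ₁l (i k))
  have h4' : 4 ∣ n * m := h4.trans (dvd_mul_right n m)
  have hdvd : n₀ ∣ n * m := (dvd_mul_right n₀ (4 * p)).trans (dvd_mul_right n m)
  by_cases hall : ∀ m₀, 0 < m₀ → ∀ g, ∃ s : ↥(H ⊓ fixMu (n * m)), (s : GQ) ∈ fixMu m₀ ∧ ψ s = g
  · exact ⟨n * m, hdvd, h4', hn', ψ, ⟨hψlc, hall⟩, fun g h h' => hψ ⟨g, h'⟩⟩
  push Not at hall
  obtain ⟨m₀, hm₀, g₀, hg₀⟩ := hall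
  -- otherwise the image of a level is a complement
  let B : Subgroup E := ((fixMu m₀).subgroupOf (H ⊓ fixMu (n * m))).map ψ
  have hB : ∀ x, ∃ b ∈ B, π b = x := fun x => by
    obtain ⟨s, hs, rfl⟩ := hf'.surj m₀ hm₀ x
    exact ⟨ψ s, ⟨s, hs, rfl⟩, hψ s⟩
  have hdec : ∀ g : E, ∃ a ∈ A, ∃ b ∈ B, g = a * b := fun g => by
    obtain ⟨b, hb, he⟩ := hB (π g)
    exact ⟨g * b⁻¹, hker.le (by rw [MonoidHom.mem_ker, map_mul, map_inv, he, mul_inv_cancel]),
      b, hb, (inv_mul_cancel_right g b).symm⟩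
  have hAB : (A ⊓ B).Normal := ⟨fun x hx g => by
    obtain ⟨a, ha, b, hb, rfl⟩ := hdec g
    have h1 : b * x * b⁻¹ ∈ A ⊓ B :=
      ⟨hAn.conj_mem x hx.1 b, B.mul_mem (B.mul_mem hb hx.2) (B.inv_mem hb)⟩
    rw [show a * b * x * (a * b)⁻¹ = a * (b * x * b⁻¹) * a⁻¹ by group,
      hcomm a ha _ h1.1, mul_inv_cancel_right]
    exact h1⟩
  have hbot : A ⊓ B = ⊥ := (hmin _ hAB inf_le_left).resolve_right fun h => by
    obtain ⟨a, ha, b, hb, rfl⟩ := hdec g₀
    obtain ⟨s, hs, he⟩ := B.mul_mem ((inf_eq_left.1 h) ha) hb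
    exact hg₀ s hs he
  have hbij : Function.Bijective (π.comp B.subtype) := ⟨(injective_iff_map_eq_one _).2
    fun b hb => Subtype.ext ((Subgroup.mem_bot).1 (hbot.le ⟨hker.le hb, b.2⟩)), fun x => by
    obtain ⟨b, hb, he⟩ := hB x
    exact ⟨⟨b, hb⟩, he⟩⟩
  let e := MulEquiv.ofBijective _ hbij
  obtain ⟨ψ', hψ', hψ'l⟩ := exists_split_lift π
    (fun a ha b hb => hcomm a (hker.le ha) b (hker.le hb))
    (B.subtype.comp e.symm.toMonoidHom) (fun x => e.apply_symm_apply x) hH h4' hn' f' hf'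
  exact ⟨n * m, hdvd, h4', hn', ψ', hψ', fun g h h' => hψ'l ⟨g, h'⟩⟩

set_option maxHeartbeats 800000 in
-- nested subgroups of the Galois group are slow to unify
/-- **Iwasawa**: embedding problems with solvable kernel are properly soluble on a smaller
level. -/
theorem exists_cycSurj_lift {E G : Type} [Group E] [Finite E] [Group G] (π : E →* G)
    (hπ : Function.Surjective π) [Group.IsSolvable π.ker] {H : Subgroup GQ} (hH : H ∈ LQ.carrier)
    {n : ℕ} (hn : 0 < n) (f : ↥(H ⊓ fixMu n) →* G) (hf : IsCycSurj f) :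
    ∃ n', n ∣ n' ∧ 4 ∣ n' ∧ 0 < n' ∧ ∃ ψ : ↥(H ⊓ fixMu n') →* E, IsCycSurj ψ ∧
      ∀ (g : GQ) (h : g ∈ H ⊓ fixMu n) (h' : g ∈ H ⊓ fixMu n'), π (ψ ⟨g, h'⟩) = f ⟨g, h⟩ := by
  induction hN : Nat.card E using Nat.strong_induction_on generalizing E with
  | _ N ih =>
    by_cases hinj : π.ker = ⊥
    · let e := MulEquiv.ofBijective π ⟨(MonoidHom.ker_eq_bot_iff π).1 hinj, hπ⟩
      have hf' := hf.comp_inclusion (Nat.mul_pos hn (by norm_num : 0 < 4)) (dvd_mul_right n 4)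
      refine ⟨n * 4, dvd_mul_right n 4, dvd_mul_left 4 n, Nat.mul_pos hn (by norm_num),
        e.symm.toMonoidHom.comp
          (f.comp (Subgroup.inclusion (lev_le_of_dvd H (dvd_mul_right n 4)))),
        ⟨hf'.lc.comp e.symm, fun m hm g => ?_⟩, fun g h h' => e.apply_symm_apply _⟩
      obtain ⟨s, hs, he⟩ := hf'.surj m hm (π g)
      exact ⟨s, hs, (congrArg e.symm he).trans (e.symm_apply_apply g)⟩
    obtain ⟨A, p, hAn, hAK, hp, hA0, hexp, hcomm, hmin⟩ := exists_minimal_normal_le hinj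
    have : Fact p.Prime := ⟨hp⟩
    have hlt : Nat.card (E ⧸ A) < N := by
      rw [← hN, Subgroup.card_eq_card_quotient_mul_card_subgroup A]
      exact lt_mul_of_one_lt_right Nat.card_pos ((Subgroup.one_lt_card_iff_ne_bot A).2 hA0)
    let πq : E ⧸ A →* G := QuotientGroup.lift A π hAK
    have : Group.IsSolvable πq.ker := Group.isSolvable_of_surjective
      (f := ((QuotientGroup.mk' A).comp π.ker.subtype).codRestrict πq.ker fun x => x.2)
      fun ⟨x, hx⟩ => by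
        obtain ⟨a, rfl⟩ := QuotientGroup.mk'_surjective A x
        exact ⟨⟨a, hx⟩, rfl⟩
    obtain ⟨n₁, hdvd, -, hn₁, f₁, hf₁, hf₁l⟩ := ih _ hlt πq
      (QuotientGroup.lift_surjective_of_surjective A π hπ hAK) rfl
    obtain ⟨n₂, hdvd', h4, hn₂, ψ, hψ, hψl⟩ := exists_step A hexp hcomm hmin hH hn₁ f₁ hf₁
    refine ⟨n₂, hdvd.trans hdvd', h4, hn₂, ψ, hψ, fun g h h' => ?_⟩
    rw [← hf₁l g h (lev_le_of_dvd H hdvd' h'), ← hψl g (lev_le_of_dvd H hdvd' h') h']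
    rfl

/-- Every finite solvable group occurs on some level over `H`, and on all smaller ones. -/
theorem exists_cycSurj (G : Type) [Group G] [Finite G] [Group.IsSolvable G] {H : Subgroup GQ}
    (hH : H ∈ LQ.carrier) :
    ∃ n, 4 ∣ n ∧ 0 < n ∧ ∃ f : ↥(H ⊓ fixMu n) →* G, IsCycSurj f := by
  obtain ⟨n, -, h4, hn, ψ, hψ, -⟩ := exists_cycSurj_lift (1 : G →* Unit) (fun _ => ⟨1, rfl⟩)
    hH (n := 4) (by norm_num) 1 ⟨⟨⊤, ⟨⊤, mem_LQ_iff_isOpen.2 (by simp), Subgroup.comap_top _⟩,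
      fun _ _ _ => rfl⟩, fun _ _ _ => ⟨1, one_mem _, Subsingleton.elim _ _⟩⟩
  exact ⟨n, h4, hn, ψ, hψ⟩

end Fermat.Agent.SolvableOverCyclotomic
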