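import Fermat.Agent.SolvableOverCyclotomic.Descent

/-!
# Embedding problems over fields containing all roots of unity

Over any such algebraic field every finite embedding problem is soluble; over the cyclotomic
closure of a number field those with solvable kernel are properly soluble.
-/

set_option autoImplicit false
set_option linter.unusedSectionVars false

noncomputable section

local notation "Qb" => AlgebraicClosure ℚ
local notation "GQ" => AlgebraicClosure ℚ ≃ₐ[ℚ] AlgebraicClosure ℚ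

namespace Fermat.Agent.SolvableOverCyclotomic

open FA.GalCoh FA.OpenImage

variable {F : IntermediateField ℚ Qb}

/-- Over the cyclotomic closure `F` of the field of the level `H` embedding problems with solvable
kernel are properly soluble. -/
theorem exists_proper_solution {H : Subgroup GQ} (hH : H ∈ LQ.carrier) (hF : rootsField ≤ F)
    (hFH : F.fixingSubgroup ≤ H)
    (hmem : ∀ s ∈ H, (∀ m, 0 < m → s ∈ fixMu m) → s ∈ F.fixingSubgroup)
    {E G : Type} [Group E] [Finite E] [Group G] (π : E →* G) (hπ : Function.Surjective π)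
    [Group.IsSolvable π.ker] (φ : (Qb ≃ₐ[F] Qb) →* G) (hφs : Function.Surjective φ)
    (hφ : IsOpen (φ.ker : Set (Qb ≃ₐ[F] Qb))) :
    ∃ ψ : (Qb ≃ₐ[F] Qb) →* E, Function.Surjective ψ ∧
      IsOpen (ψ.ker : Set (Qb ≃ₐ[F] Qb)) ∧ π.comp ψ = φ := by
  obtain ⟨W, hW, f, hWm, hf, hfφ⟩ := exists_extend φ hφ
  obtain ⟨n, hn, hHW⟩ := exists_lev_le hH hmem hWm hW
  have hle : ∀ m, 0 < m → F.fixingSubgroup ≤ H ⊓ fixMu m := fun m hm =>
    le_inf hFH (fixingSubgroup_le_fixMu hF hm)
  obtain ⟨n', -, -, hn', ψ, hψ, hψl⟩ := exists_cycSurj_lift π hπ hH hn _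
    (isCycSurj_of_toGal hF (hle n hn) hW hHW hf (by rwa [hfφ]))
  refine ⟨toGal (hle n' hn') ψ, hψ.toGal_surjective hH hmem hn' (hle n' hn'),
    isOpen_ker_toGal _ hψ.lc, MonoidHom.ext fun τ => ?_⟩
  obtain ⟨s, rfl⟩ := (galEquiv F).surjective τ
  rw [MonoidHom.comp_apply, ← hfφ, toGal_galEquiv, toGal_galEquiv]
  exact hψl _ (hle n hn s.2) _

/-- Over a field containing all roots of unity embedding problems with solvable kernel are
soluble. -/
theorem exists_solution_of_solvable (hF : rootsField ≤ F) {E G : Type} [Group E] [Finite E]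
    [Group G] (π : E →* G) (hπ : Function.Surjective π) [Group.IsSolvable π.ker]
    (φ : (Qb ≃ₐ[F] Qb) →* G) (hφs : Function.Surjective φ)
    (hφ : IsOpen (φ.ker : Set (Qb ≃ₐ[F] Qb))) :
    ∃ ψ : (Qb ≃ₐ[F] Qb) →* E, IsOpen (ψ.ker : Set (Qb ≃ₐ[F] Qb)) ∧ π.comp ψ = φ := by
  obtain ⟨W, hW, f, hWm, hf, hfφ⟩ := exists_extend φ hφ
  have hle : ∀ m, 0 < m → F.fixingSubgroup ≤ W ⊓ fixMu m := fun m hm =>
    le_inf hW (fixingSubgroup_le_fixMu hF hm)
  obtain ⟨n', -, -, hn', ψ, hψ, hψl⟩ := exists_cycSurj_lift π hπ hWm Nat.one_pos _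
    (isCycSurj_of_toGal hF (hle 1 Nat.one_pos) hW inf_le_left hf (by rwa [hfφ]))
  refine ⟨toGal (hle n' hn') ψ, isOpen_ker_toGal _ hψ.lc, MonoidHom.ext fun τ => ?_⟩
  obtain ⟨s, rfl⟩ := (galEquiv F).surjective τ
  rw [MonoidHom.comp_apply, ← hfφ, toGal_galEquiv, toGal_galEquiv]
  exact hψl _ (hle 1 Nat.one_pos s.2) _

/-- **Projectivity**: a Frattini argument makes the kernel nilpotent. -/
theorem exists_solution (hF : rootsField ≤ F) {E G : Type} [Group E] [Finite E] [Group G]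
    (π : E →* G) (hπ : Function.Surjective π) (φ : (Qb ≃ₐ[F] Qb) →* G)
    (hφ : IsOpen (φ.ker : Set (Qb ≃ₐ[F] Qb))) :
    ∃ ψ : (Qb ≃ₐ[F] Qb) →* E, IsOpen (ψ.ker : Set (Qb ≃ₐ[F] Qb)) ∧ π.comp ψ = φ := by
  let π' : φ.range.comap π →* φ.range := π.subgroupComap φ.range
  have hπ' : Function.Surjective π' := π.subgroupComap_surjective_of_surjective _ hπ
  obtain ⟨H, hH, hmin⟩ := exists_minimal_of_wellFoundedLT
    (fun H : Subgroup (φ.range.comap π) => ∀ g, ∃ h ∈ H, π' h = g)
    ⟨⊤, fun g => (hπ' g).imp fun _ h => ⟨Subgroup.mem_top _, h⟩⟩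
  let πH : H →* φ.range := π'.comp H.subtype
  have hπH : Function.Surjective πH := fun g => by
    obtain ⟨h, hh, rfl⟩ := hH g
    exact ⟨⟨h, hh⟩, rfl⟩
  have hfr : πH.ker ≤ frattini H := by
    rw [frattini, Order.radical]
    refine le_iInf₂ fun M hM x hx => by_contra fun hxM => hM.1 ?_
    have hsup : M ⊔ πH.ker = ⊤ := hM.2 _ (lt_of_le_not_ge le_sup_left
      fun h => hxM (h (Subgroup.mem_sup_right hx)))
    have hsub : H ≤ M.map H.subtype := hmin (fun g => by
      obtain ⟨y, rfl⟩ := hπH g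
      obtain ⟨m, hm, k, hk, rfl⟩ := Subgroup.mem_sup_of_normal_right.1
        (hsup ▸ Subgroup.mem_top y : y ∈ M ⊔ πH.ker)
      exact ⟨_, ⟨m, hm, rfl⟩, by rw [map_mul, MonoidHom.mem_ker.1 hk, mul_one]; rfl⟩)
      (Subgroup.map_subtype_le M)
    refine eq_top_iff.2 fun y _ => ?_
    obtain ⟨m, hm, he⟩ := hsub y.2
    exact Subtype.ext he ▸ hm
  have : Group.IsNilpotent (frattini H) := frattini_nilpotent
  have : Group.IsSolvable (frattini H) := inferInstance
  have : Group.IsSolvable πH.ker :=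
    Group.isSolvable_of_isSolvable_injective (Subgroup.inclusion_injective hfr)
  obtain ⟨ψ, hψo, hψ⟩ := exists_solution_of_solvable hF πH hπH φ.rangeRestrict
    φ.rangeRestrict_surjective (by rwa [MonoidHom.ker_rangeRestrict])
  refine ⟨((φ.range.comap π).subtype.comp H.subtype).comp ψ,
    Subgroup.isOpen_mono (fun s hs => ?_) hψo, MonoidHom.ext fun s =>
      congrArg Subtype.val (DFunLike.congr_fun hψ s)⟩
  rw [MonoidHom.mem_ker] at hs ⊢
  rw [MonoidHom.comp_apply, hs, map_one]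

/-- The field cut out by a surjection with open kernel. -/
theorem exists_field_of_gal {G : Type} [Group G] (θ : (Qb ≃ₐ[F] Qb) →* G)
    (hθs : Function.Surjective θ) (hopen : IsOpen (θ.ker : Set (Qb ≃ₐ[F] Qb))) :
    ∃ M : IntermediateField F Qb, FiniteDimensional F M ∧ IsGalois F M ∧
      Nonempty ((M ≃ₐ[F] M) ≃* G) := by
  have : IsGalois ℚ Qb := FA.Local.isGalois_qbar
  have : IsGalois F Qb := IsGalois.tower_top_of_isGalois ℚ F Qb
  let H : ClosedSubgroup (Qb ≃ₐ[F] Qb) := ⟨θ.ker, Subgroup.isClosed_of_isOpen _ hopen⟩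
  have : H.Normal := θ.normal_ker
  set M : IntermediateField F Qb := IntermediateField.fixedField H.1
  obtain ⟨hMf, hMg⟩ :=
    (InfiniteGalois.isOpen_and_normal_iff_finite_and_isGalois M).mp
      (by rw [InfiniteGalois.fixingSubgroup_fixedField H]; exact ⟨hopen, θ.normal_ker⟩)
  exact ⟨M, hMf, hMg, ⟨(InfiniteGalois.normalAutEquivQuotient H).symm.trans
    (QuotientGroup.quotientKerEquivOfSurjective θ hθs)⟩⟩

end Fermat.Agent.SolvableOverCyclotomic
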