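import Fermat.Agent.SolvableOverCyclotomic.Central

/-!
# Embedding problems with `p`-groups, and averaging

Over a totally complex number field with the `p`-th roots of unity an embedding problem with a
`p`-group becomes soluble in a cyclotomic extension, by splitting it into central ones; and a weak
solution on a subgroup of index prime to `p` gives one on the whole group when the kernel is
commutative of exponent `p`.
-/

set_option autoImplicit false
set_option linter.unusedSectionVars false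

noncomputable section

namespace Fermat.Agent.SolvableOverCyclotomic

open FA.GalCoh ScholzReichardt

variable {p : ℕ} [hp : Fact p.Prime]

/-- A non-injective homomorphism of a `p`-group factors through a central extension. -/
theorem exists_cExt_of_not_injective {E G : Type} [Group E] [Finite E] [Group G] (π : E →* G)
    (hPG : IsPGroup p E) (h : ¬ Function.Injective π) :
    ∃ (C : Subgroup E) (_ : C.Normal) (D : CExt p E (E ⧸ C)),
      C ≤ π.ker ∧ Nat.card (E ⧸ C) < Nat.card E ∧ D.π = QuotientGroup.mk' C := by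
  have hne : π.ker ≠ ⊥ := fun h0 => h ((MonoidHom.ker_eq_bot_iff π).1 h0)
  have hdvd : p ∣ Nat.card π.ker := by
    obtain ⟨k, hk⟩ := IsPGroup.iff_card.1 (hPG.to_subgroup π.ker)
    rw [hk]
    exact dvd_pow_self p fun h0 => hne (Subgroup.eq_bot_of_card_eq _ (by rw [hk, h0, pow_zero]))
  obtain ⟨a, ha, ha1⟩ := (hPG.of_equiv ConjAct.toConjAct)
    |>.exists_fixed_point_of_prime_dvd_card_of_fixed_point π.ker hdvd
    (a := 1) (fun g => smul_one g)
  have hcen : (a : E) ∈ Subgroup.center E := Subgroup.mem_center_iff.2 fun g => by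
    have h1 := congrArg Subtype.val (ha (ConjAct.toConjAct g))
    rw [ConjAct.Subgroup.val_conj_smul, ConjAct.smul_def, ConjAct.ofConjAct_toConjAct] at h1
    exact mul_inv_eq_iff_eq_mul.1 h1
  obtain ⟨k, hk⟩ := hPG (a : E)
  have hordp : p ∣ orderOf (a : E) := by
    obtain ⟨j, -, hj⟩ := (Nat.dvd_prime_pow hp.out).1 (orderOf_dvd_of_pow_eq_one hk)
    rw [hj]
    refine dvd_pow_self p fun h0 => ha1 (Subtype.ext ?_).symm
    rw [Subgroup.coe_one, ← orderOf_eq_one_iff, hj, h0, pow_zero]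
  obtain ⟨r, hr⟩ := hordp
  have hord : 0 < orderOf (a : E) := (isOfFinOrder_of_finite _).orderOf_pos
  set z := (a : E) ^ r with hzdef
  have hr0 : r ≠ 0 := fun h0 => by rw [h0, mul_zero] at hr; omega
  have hz : orderOf z = p := by
    rw [orderOf_pow' _ hr0, Nat.gcd_eq_right ⟨p, by rw [hr, mul_comm]⟩, hr,
      Nat.mul_div_cancel _ (Nat.pos_of_ne_zero hr0)]
  have hzc : z ∈ Subgroup.center E := pow_mem hcen r
  have hzp : z ^ p = 1 := hz ▸ pow_orderOf_eq_one z
  have hn : (Subgroup.zpowers z).Normal := ⟨fun x hx g => by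
    have hxc : x ∈ Subgroup.center E :=
      (Subgroup.zpowers_le.2 hzc : Subgroup.zpowers z ≤ _) hx
    rw [Subgroup.mem_center_iff.1 hxc g, mul_inv_cancel_right]
    exact hx⟩
  have : NeZero p := ⟨hp.out.ne_zero⟩
  let j : Multiplicative (ZMod p) →* E := powChar z hzp Multiplicative.toAdd fun _ _ => rfl
  refine ⟨Subgroup.zpowers z, hn,
    { π := QuotientGroup.mk' _
      surj := QuotientGroup.mk'_surjective _
      j := j
      inj := fun x y h => Multiplicative.toAdd.injective (ZMod.val_injective p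
        (pow_injOn_Iio_orderOf (by rw [Set.mem_Iio, hz]; exact ZMod.val_lt _)
          (by rw [Set.mem_Iio, hz]; exact ZMod.val_lt _) h))
      range_eq := by
        rw [QuotientGroup.ker_mk']
        refine le_antisymm (fun x hx => ?_) (Subgroup.zpowers_le.2 ⟨Multiplicative.ofAdd 1, ?_⟩)
        · obtain ⟨y, rfl⟩ := hx
          exact pow_mem (Subgroup.mem_zpowers z) _
        · have : Fact (1 < p) := ⟨hp.out.one_lt⟩
          show z ^ (1 : ZMod p).val = z
          rw [ZMod.val_one, pow_one]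
      central := fun x e => (Subgroup.mem_center_iff.1 (pow_mem hzc _) e).symm },
    Subgroup.zpowers_le.2 (pow_mem a.2 r), ?_, rfl⟩
  have h2 := Subgroup.card_eq_card_quotient_mul_card_subgroup (Subgroup.zpowers z)
  rw [Nat.card_zpowers, hz] at h2
  rw [h2]
  exact lt_mul_of_one_lt_right Nat.card_pos hp.out.one_lt

set_option maxHeartbeats 800000 in
-- nested subgroups of the Galois group are slow to unify
/-- **Embedding problems with `p`-groups are soluble over a cyclotomic extension.** -/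
theorem exists_lift_pGroup {E G : Type} [Group E] [Finite E] [Group G] (π : E →* G)
    (hπ : Function.Surjective π) (hPG : IsPGroup p E) {H : Subgroup GQ} (hH : H ∈ LQ.carrier)
    (hH1 : ∀ h ∈ H, (cycQ p).χ h = 1) (hT : TC H) (f : H →* G) (hf : LC₁ (LQ.sub H) f) :
    ∃ m, 0 < m ∧ ∃ ψ : ↥(H ⊓ fixMu m) →* E, LC₁ (LQ.sub (H ⊓ fixMu m)) ψ ∧
      ∀ g, π (ψ g) = f (Subgroup.inclusion inf_le_left g) := by
  induction hn : Nat.card E using Nat.strong_induction_on generalizing E with
  | _ n ih =>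
    by_cases hinj : Function.Injective π
    · let e := MulEquiv.ofBijective π ⟨hinj, hπ⟩
      refine ⟨1, Nat.one_pos, e.symm.toMonoidHom.comp (f.comp (Subgroup.inclusion inf_le_left)),
        (hf.precomp (compat_inclusion inf_le_left)).comp e.symm, fun g => ?_⟩
      exact e.apply_symm_apply _
    obtain ⟨C, hC, D, hle, hlt, hD⟩ := exists_cExt_of_not_injective π hPG hinj
    obtain ⟨m₁, hm₁, ψ₁, hψ₁, h₁⟩ := ih _ (hn ▸ hlt) (QuotientGroup.lift C π hle)
      (QuotientGroup.lift_surjective_of_surjective C π hπ hle) (hPG.to_quotient C) rfl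
    obtain ⟨m₂, hm₂, ψ₂, hψ₂, h₂⟩ := exists_lift_cyclotomic (LQ.inf_mem hH (fixMu_mem hm₁))
      (fun h hh => hH1 h hh.1) (hT.mono inf_le_left) D ψ₁ hψ₁
    have hle' : H ⊓ fixMu (m₁ * m₂) ≤ (H ⊓ fixMu m₁) ⊓ fixMu m₂ := fun g hg =>
      ⟨⟨hg.1, fixMu_le_of_dvd (dvd_mul_right m₁ m₂) hg.2⟩,
        fixMu_le_of_dvd (dvd_mul_left m₂ m₁) hg.2⟩
    refine ⟨m₁ * m₂, Nat.mul_pos hm₁ hm₂, ψ₂.comp (Subgroup.inclusion hle'),
      hψ₂.precomp (compat_inclusion hle'), fun g => ?_⟩
    have h3 := congrArg (QuotientGroup.lift C π hle) (h₂ (Subgroup.inclusion hle' g))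
    rw [hD, h₁] at h3
    exact h3

set_option maxHeartbeats 800000 in
-- the identities of the kernel are checked in the group
/-- **Averaging over a subgroup of index prime to `p`.** -/
theorem exists_hom_of_coprime {Γ : Type} [Group Γ] {L : Levels Γ} {E G : Type} [Group E]
    [Group G] (π : E →* G) (hπ : Function.Surjective π)
    (hcomm : ∀ a ∈ π.ker, ∀ b ∈ π.ker, a * b = b * a) (hexp : ∀ a ∈ π.ker, a ^ p = 1)
    (f : Γ →* G) {K : Subgroup Γ} (hK : K ∈ L.carrier) (hidx : ¬ p ∣ K.index) (ψK : K →* E)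
    (hψK : LC₁ (L.sub K) ψK) (hlift : ∀ k : K, π (ψK k) = f k) :
    ∃ ψ : Γ →* E, LC₁ L ψ ∧ ∀ x, π (ψ x) = f x := by
  classical
  have := L.finiteIndex hK
  let _ : Fintype (Γ ⧸ K) := Fintype.ofFinite _
  let _ : CommGroup π.ker :=
    { (inferInstance : Group π.ker) with
      mul_comm := fun a b => Subtype.ext (hcomm _ a.2 _ b.2) }
  let r : Γ → Γ := fun x => ((x⁻¹ : Γ) : Γ ⧸ K).out
  have hr : ∀ x, x * r x ∈ K := fun x => by
    have h := QuotientGroup.eq.1 (QuotientGroup.out_eq' ((x⁻¹ : Γ) : Γ ⧸ K)).symm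
    rwa [inv_inv] at h
  have hrk : ∀ (k : K) (x : Γ), r ((k : Γ) * x) = r x := fun k x => by
    refine congrArg Quotient.out (QuotientGroup.eq.2 ?_)
    rw [inv_inv, mul_assoc, mul_inv_cancel, mul_one]
    exact k.2
  let t : G → E := Function.surjInv hπ
  let s : Γ → E := fun x => ψK ⟨x * r x, hr x⟩ * t (f (r x)⁻¹)
  have hsπ : ∀ x, π (s x) = f x := fun x => by
    simp only [s, t]
    rw [map_mul, hlift, Function.surjInv_eq hπ, map_mul, map_inv, mul_inv_cancel_right]
  have hsk : ∀ (k : K) (x : Γ), s ((k : Γ) * x) = ψK k * s x := fun k x => by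
    have h1 : (⟨(k : Γ) * x * r ((k : Γ) * x), hr _⟩ : K) = k * ⟨x * r x, hr x⟩ :=
      Subtype.ext (by
        show (k : Γ) * x * r ((k : Γ) * x) = k * (x * r x)
        rw [hrk, mul_assoc])
    simp only [s]
    rw [h1, map_mul, hrk, mul_assoc]
  let u : Γ → Γ → π.ker := fun x y => ⟨s y * (s (x * y))⁻¹ * s x, MonoidHom.mem_ker.2 (by
    rw [map_mul, map_mul, map_inv, hsπ, hsπ, hsπ, map_mul]; group)⟩
  have hu : ∀ (k : K) x y, u ((k : Γ) * x) y = u x y := fun k x y => Subtype.ext (by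
    show s y * (s ((k : Γ) * x * y))⁻¹ * s ((k : Γ) * x) = s y * (s (x * y))⁻¹ * s x
    rw [mul_assoc (k : Γ) x y, hsk, hsk]; group)
  have hucls : ∀ x y, u x y = u ((x⁻¹ : Γ) : Γ ⧸ K).out⁻¹ y := fun x y => by
    conv_lhs => rw [show x = ((⟨x * r x, hr x⟩ : K) : Γ) * (r x)⁻¹ from
      (mul_inv_cancel_right x (r x)).symm]
    exact hu _ _ y
  let c : Γ → Γ → π.ker := fun y z => ⟨s y * s z * (s (y * z))⁻¹, MonoidHom.mem_ker.2 (by
    rw [map_mul, map_mul, map_inv, hsπ, hsπ, hsπ, map_mul, mul_inv_cancel])⟩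
  let conj : Γ → π.ker →* π.ker := fun y => (MulAut.conjNormal (s y)).toMonoidHom
  have hid : ∀ x y z, conj y (u (x * y) z) * u x y = c y z * u x (y * z) := fun x y z =>
    Subtype.ext (by
      show s y * (s z * (s (x * y * z))⁻¹ * s (x * y)) * (s y)⁻¹ * (s y * (s (x * y))⁻¹ * s x)
        = s y * s z * (s (y * z))⁻¹ * (s (y * z) * (s (x * (y * z)))⁻¹ * s x)
      rw [mul_assoc x y z]; group)
  let B : Γ → π.ker := fun y => ∏ q : Γ ⧸ K, u q.out⁻¹ y
  have hB : ∀ y z, conj y (B z) * B y = c y z ^ K.index * B (y * z) := fun y z => by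
    have hperm : B z = ∏ q : Γ ⧸ K, u (q.out⁻¹ * y) z := by
      refine (Equiv.prod_comp (MulAction.toPerm (y⁻¹ : Γ)) fun q : Γ ⧸ K =>
        u q.out⁻¹ z).symm.trans
        (Finset.prod_congr rfl fun q _ => ?_)
      rw [hucls (q.out⁻¹ * y) z, mul_inv_rev, inv_inv]
      conv_lhs => rw [← QuotientGroup.out_eq' q]
      rfl
    rw [hperm, map_prod, ← Finset.prod_mul_distrib, Finset.prod_congr rfl fun q _ => hid _ y z,
      Finset.prod_mul_distrib, Finset.prod_const, Finset.card_univ, Fintype.card_eq_nat_card]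
    rfl
  obtain ⟨n', -, hn'⟩ := Nat.exists_mul_mod_eq_one_of_coprime
    ((hp.out.coprime_iff_not_dvd.2 hidx).symm) hp.out.one_lt
  have hker : ∀ a : π.ker, a ^ (K.index * n') = a := fun a => by
    have h : a ^ p = 1 := Subtype.ext (hexp _ a.2)
    rw [pow_eq_pow_mod _ h, hn', pow_one]
  let b : Γ → π.ker := fun y => B y ^ n'
  have hb : ∀ y z, conj y (b z) * b y = c y z * b (y * z) := fun y z => by
    simp only [b]
    rw [map_pow, ← mul_pow, hB, mul_pow, ← pow_mul, hker]
  let ψ : Γ →* E := MonoidHom.mk' (fun y => ((b y)⁻¹ : π.ker) * s y) fun y z => by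
    have h1 : (((conj y (b z) * b y)⁻¹ : π.ker) : E) * (s y * s z)
        = ((b (y * z))⁻¹ : π.ker) * s (y * z) := by
      rw [hb, mul_inv_rev, Subgroup.coe_mul]
      show _ * ((s y * s z * (s (y * z))⁻¹)⁻¹) * (s y * s z) = _
      group
    rw [← h1, mul_inv_rev, Subgroup.coe_mul]
    show ((b y : π.ker) : E)⁻¹ * (s y * (b z : π.ker) * (s y)⁻¹)⁻¹ * (s y * s z) = _
    simp only [InvMemClass.coe_inv]
    group
  refine ⟨ψ, ?_, fun y => ?_⟩
  · obtain ⟨_, ⟨N', hN', rfl⟩, hs'⟩ := hψK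
    obtain ⟨M, hM, hMle, hMn⟩ := L.exists_normal (L.inf_mem hN' hK)
    have hsM : ∀ x m, m ∈ M → s (x * m) = s x := fun x m hm => by
      have hm' := hMn.conj_mem _ hm x
      have h1 := hsk ⟨_, (hMle hm').2⟩ x
      rw [show ((⟨_, (hMle hm').2⟩ : K) : Γ) * x = x * m from inv_mul_cancel_right _ _] at h1
      rw [h1]
      have h2 := hs' 1 ⟨_, (hMle hm').2⟩ (Subgroup.mem_subgroupOf.2 (hMle hm').1)
      rw [one_mul, map_one] at h2
      rw [h2, one_mul]
    refine ⟨M, hM, fun y m hm => ?_⟩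
    have h1 : B (y * m) = B y := Finset.prod_congr rfl fun q _ => Subtype.ext (by
      show s (y * m) * (s (q.out⁻¹ * (y * m)))⁻¹ * _ = s y * (s (q.out⁻¹ * y))⁻¹ * _
      rw [← mul_assoc q.out⁻¹ y m, hsM y m hm, hsM (q.out⁻¹ * y) m hm])
    show ((B (y * m) ^ n')⁻¹ : π.ker) * s (y * m) = (((B y ^ n')⁻¹ : π.ker) : E) * s y
    rw [h1, hsM _ _ hm]
  · show π ((((b y)⁻¹ : π.ker) : E) * s y) = f y
    rw [map_mul, MonoidHom.mem_ker.1 ((b y)⁻¹).2, one_mul, hsπ]

end Fermat.Agent.SolvableOverCyclotomic
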